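import Mathlib

/-!
# IS-C2: level one modular forms are spanned by forms with integral `q`-expansion
-/

open UpperHalfPlane ModularForm EisensteinSeries
open scoped Manifold MatrixGroups ArithmeticFunction.sigma

/-- functions that are modular forms of level `Γ`, weight `m`, with integral `q`-expansion -/
def FA_IS_intForms (Γ : Subgroup (GL (Fin 2) ℝ)) (m : ℤ) : Set (ℍ → ℂ) :=
  {G | (∃ g : ModularForm Γ m, ⇑g = G) ∧ ∀ n, ∃ c : ℤ, (qExpansion 1 G).coeff n = (c : ℂ)}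

namespace FA_IS_L1

/-- the subring of integral power series -/
noncomputable def intPS : Subring (PowerSeries ℂ) := (PowerSeries.map (Int.castRingHom ℂ)).range

lemma mem_intPS_iff (P : PowerSeries ℂ) : P ∈ intPS ↔ ∀ n, ∃ c : ℤ, P.coeff n = (c : ℂ) := by
  constructor
  · rintro ⟨Q, rfl⟩ n
    exact ⟨Q.coeff n, by simp⟩
  · intro h
    choose c hc using h
    exact ⟨PowerSeries.mk c, by ext n; simp [hc]⟩

/-- `∑ σ_3(n) q^n` -/
noncomputable def sA : PowerSeries ℤ := PowerSeries.mk fun n => if n = 0 then 0 else (σ 3 n : ℤ)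
/-- `∑ σ_5(n) q^n` -/
noncomputable def sB : PowerSeries ℤ := PowerSeries.mk fun n => if n = 0 then 0 else (σ 5 n : ℤ)
/-- `∑ (σ_3(n) - σ_5(n))/12 q^n` -/
noncomputable def sC : PowerSeries ℤ :=
  PowerSeries.mk fun n => if n = 0 then 0 else ((σ 3 n : ℤ) - (σ 5 n : ℤ)) / 12

lemma twelve_dvd_pow (d : ℤ) : (12 : ℤ) ∣ d ^ 3 - d ^ 5 := by
  have h : ∀ x : ZMod 12, x ^ 3 - x ^ 5 = 0 := by decide
  have := h (d : ZMod 12)
  have h2 := (ZMod.intCast_zmod_eq_zero_iff_dvd (d ^ 3 - d ^ 5) 12).mp (by push_cast; exact this)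
  exact_mod_cast h2

lemma twelve_dvd_sigma (n : ℕ) : (12 : ℤ) ∣ (σ 3 n : ℤ) - (σ 5 n : ℤ) := by
  rw [ArithmeticFunction.sigma_apply, ArithmeticFunction.sigma_apply]
  push_cast
  rw [← Finset.sum_sub_distrib]
  exact Finset.dvd_sum fun d _ => twelve_dvd_pow d

lemma sA_sub_sB : sA - sB = 12 * sC := by
  ext n
  have h12 : ((12 : PowerSeries ℤ)) = PowerSeries.C (12 : ℤ) := by
    simp
  rw [h12, PowerSeries.coeff_C_mul]
  simp only [sA, sB, sC, map_sub, PowerSeries.coeff_mk]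
  split_ifs with h
  · simp
  · rw [Int.mul_ediv_cancel' (twelve_dvd_sigma n)]

lemma qExp_E4 : qExpansion 1 E₄ = PowerSeries.map (Int.castRingHom ℂ) (1 + 240 * sA) := by
  ext n
  rw [E_qExpansion_coeff _ ⟨2, rfl⟩]
  have h240 : ((240 : PowerSeries ℤ)) = PowerSeries.C (240 : ℤ) := by simp
  rw [PowerSeries.coeff_map, map_add, h240, PowerSeries.coeff_C_mul, PowerSeries.coeff_one]
  simp only [sA, PowerSeries.coeff_mk]
  split_ifs with h
  · simp
  · norm_num [show bernoulli 4 = -1 / 30 by decide +kernel]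

lemma qExp_E6 : qExpansion 1 E₆ = PowerSeries.map (Int.castRingHom ℂ) (1 - 504 * sB) := by
  ext n
  rw [E_qExpansion_coeff _ ⟨3, rfl⟩]
  have h504 : ((504 : PowerSeries ℤ)) = PowerSeries.C (504 : ℤ) := by simp
  rw [PowerSeries.coeff_map, map_sub, h504, PowerSeries.coeff_C_mul, PowerSeries.coeff_one]
  simp only [sB, PowerSeries.coeff_mk]
  split_ifs with h
  · simp
  · norm_num [show bernoulli 6 = 1 / 42 by decide +kernel]

/-- the integral `q`-expansion of `Δ` -/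
noncomputable def sD : PowerSeries ℤ :=
  5 * sC + sB + 100 * sA ^ 2 + 8000 * sA ^ 3 - 147 * sB ^ 2

lemma int_identity : (1 + 240 * sA) ^ 3 - (1 - 504 * sB) ^ 2 = 1728 * sD := by
  have h : sA = sB + 12 * sC := by rw [← sA_sub_sB]; ring
  unfold sD
  linear_combination 720 * h

lemma qExp_disc_mul : (1728 : ℂ) • qExpansion 1 ModularForm.discriminant =
    qExpansion 1 E₄ ^ 3 - qExpansion 1 E₆ ^ 2 := by
  have h1 : ((1728 : ℂ) • (CuspForm.discriminant : ℍ → ℂ)) =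
      ⇑(E₄.pow 3) - ⇑(E₆.pow 2) := by
    funext z
    simp only [Pi.smul_apply, CuspForm.coe_discriminant, smul_eq_mul, Pi.sub_apply, coe_pow,
      Pi.pow_apply]
    rw [discriminant_eq_E₄_cube_sub_E₆_sq z]
    ring
  have h2 := ModularForm.qExpansion_smul one_pos one_mem_strictPeriods_SL 1728
      CuspForm.discriminant
  rw [h1, ModularForm.qExpansion_sub one_pos one_mem_strictPeriods_SL,
    ModularForm.qExpansion_pow one_pos one_mem_strictPeriods_SL,
    ModularForm.qExpansion_pow one_pos one_mem_strictPeriods_SL] at h2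
  rw [← CuspForm.coe_discriminant]
  exact h2.symm

lemma qExp_disc : qExpansion 1 ModularForm.discriminant =
    PowerSeries.map (Int.castRingHom ℂ) sD := by
  have h := qExp_disc_mul
  rw [qExp_E4, qExp_E6, ← map_pow, ← map_pow, ← map_sub, int_identity, map_mul] at h
  have h1728 : PowerSeries.map (Int.castRingHom ℂ) (1728 : PowerSeries ℤ) =
      PowerSeries.C (1728 : ℂ) := by
    rw [map_ofNat, map_ofNat]
  rw [h1728, ← PowerSeries.smul_eq_C_mul] at h
  exact smul_right_injective _ (by norm_num : (1728 : ℂ) ≠ 0) h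

end FA_IS_L1

open FA_IS_L1 in
/-- C2a -/
theorem FA_IS_discriminant_qExpansion_int (n : ℕ) :
    ∃ c : ℤ, (qExpansion 1 ModularForm.discriminant).coeff n = (c : ℂ) := by
  rw [qExp_disc]
  exact ⟨sD.coeff n, by simp⟩

namespace FA_IS_L1

lemma mem_intForms_iff {m : ℤ} {G : ℍ → ℂ} : G ∈ FA_IS_intForms 𝒮ℒ m ↔
    (∃ g : ModularForm 𝒮ℒ m, ⇑g = G) ∧ qExpansion 1 G ∈ intPS := by
  rw [mem_intPS_iff]; rfl

/-- integral forms with constant term `1` -/
def good (m : ℤ) (G : ℍ → ℂ) : Prop :=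
  G ∈ FA_IS_intForms 𝒮ℒ m ∧ (qExpansion 1 G).coeff 0 = 1

lemma intForms_mul {a b : ℤ} {F G : ℍ → ℂ} (hF : F ∈ FA_IS_intForms 𝒮ℒ a)
    (hG : G ∈ FA_IS_intForms 𝒮ℒ b) : F * G ∈ FA_IS_intForms 𝒮ℒ (a + b) := by
  rw [mem_intForms_iff] at *
  obtain ⟨⟨f, rfl⟩, hf⟩ := hF
  obtain ⟨⟨g, rfl⟩, hg⟩ := hG
  refine ⟨⟨f.mul g, rfl⟩, ?_⟩
  rw [ModularForm.qExpansion_mul_coe one_pos one_mem_strictPeriods_SL]
  exact mul_mem hf hg

lemma good_mul {a b : ℤ} {F G : ℍ → ℂ} (hF : good a F) (hG : good b G) : good (a + b) (F * G) := by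
  refine ⟨intForms_mul hF.1 hG.1, ?_⟩
  obtain ⟨⟨⟨f, rfl⟩, -⟩, hf⟩ := hF
  obtain ⟨⟨⟨g, rfl⟩, -⟩, hg⟩ := hG
  rw [ModularForm.qExpansion_mul_coe one_pos one_mem_strictPeriods_SL]
  simp only [PowerSeries.coeff_zero_eq_constantCoeff, map_mul] at *
  rw [hf, hg, mul_one]

lemma good_one : good 0 (1 : ℍ → ℂ) := by
  refine ⟨mem_intForms_iff.mpr ⟨⟨1, rfl⟩, ?_⟩, ?_⟩
  · rw [qExpansion_one]; exact one_mem _
  · rw [qExpansion_one]; simp

lemma good_pow {a : ℤ} {F : ℍ → ℂ} (hF : good a F) (n : ℕ) : good (n * a) (F ^ n) := by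
  induction n with
  | zero => simpa using good_one
  | succ n ih =>
    rw [pow_succ]
    have := good_mul ih hF
    have he : ((n + 1 : ℕ) : ℤ) * a = n * a + a := by push_cast; ring
    rw [he]
    exact this

lemma good_E4 : good 4 (⇑E₄) := by
  refine ⟨mem_intForms_iff.mpr ⟨⟨E₄, rfl⟩, ?_⟩, E_qExpansion_coeff_zero _ ⟨2, rfl⟩⟩
  rw [qExp_E4]; exact ⟨_, rfl⟩

lemma good_E6 : good 6 (⇑E₆) := by
  refine ⟨mem_intForms_iff.mpr ⟨⟨E₆, rfl⟩, ?_⟩, E_qExpansion_coeff_zero _ ⟨3, rfl⟩⟩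
  rw [qExp_E6]; exact ⟨_, rfl⟩

lemma intForms_disc : ModularForm.discriminant ∈ FA_IS_intForms 𝒮ℒ 12 := by
  refine mem_intForms_iff.mpr ⟨⟨CuspForm.toModularFormₗ CuspForm.discriminant, ?_⟩, ?_⟩
  · funext z
    rw [CuspForm.toModularFormₗ_apply, CuspForm.coe_discriminant]
  · rw [qExp_disc]; exact ⟨_, rfl⟩

lemma disc_mul_mem_span {m : ℤ} {h : ℍ → ℂ}
    (hh : h ∈ Submodule.span ℂ (FA_IS_intForms 𝒮ℒ (m - 12))) :
    ModularForm.discriminant * h ∈ Submodule.span ℂ (FA_IS_intForms 𝒮ℒ m) := by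
  induction hh using Submodule.span_induction with
  | mem x hx =>
    apply Submodule.subset_span
    have := intForms_mul intForms_disc hx
    have he : (12 : ℤ) + (m - 12) = m := by ring
    rwa [he] at this
  | zero => simp
  | add x y _ _ hx hy => rw [mul_add]; exact add_mem hx hy
  | smul a x _ hx => rw [mul_smul_comm]; exact Submodule.smul_mem _ _ hx

lemma exists_good (k : ℕ) (hk : 4 ≤ k) (hk2 : Even k) : ∃ F, good (k : ℤ) F := by
  obtain ⟨a, b, hab⟩ : ∃ a b : ℕ, a * 4 + b * 6 = k := by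
    obtain ⟨j, rfl⟩ := hk2
    rcases Nat.even_or_odd' j with ⟨i, rfl | rfl⟩
    · exact ⟨i, 0, by omega⟩
    · exact ⟨i - 1, 1, by omega⟩
  refine ⟨⇑E₄ ^ a * ⇑E₆ ^ b, ?_⟩
  have := good_mul (good_pow good_E4 a) (good_pow good_E6 b)
  have he : (a : ℤ) * 4 + (b : ℤ) * 6 = (k : ℤ) := by exact_mod_cast hab
  rwa [he] at this

/-- the reduction step -/
lemma step {m : ℤ} (g : ModularForm 𝒮ℒ m) {F : ℍ → ℂ} (hF : good m F)
    (ih : ∀ h : ModularForm 𝒮ℒ (m - 12),
      (⇑h : ℍ → ℂ) ∈ Submodule.span ℂ (FA_IS_intForms 𝒮ℒ (m - 12))) :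
    (⇑g : ℍ → ℂ) ∈ Submodule.span ℂ (FA_IS_intForms 𝒮ℒ m) := by
  have hF1 := hF.1
  obtain ⟨⟨⟨f0, rfl⟩, -⟩, hf0⟩ := hF
  set c : ℂ := (qExpansion 1 g).coeff 0 with hc
  have hcusp : (qExpansion 1 (⇑(g - c • f0 : ModularForm 𝒮ℒ m))).coeff 0 = 0 := by
    rw [FunLike.coe_sub, ModularForm.qExpansion_sub one_pos one_mem_strictPeriods_SL,
      FunLike.coe_smul, ModularForm.qExpansion_smul one_pos one_mem_strictPeriods_SL, map_sub,
      PowerSeries.coeff_smul, hf0, smul_eq_mul, mul_one, sub_self]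
  have h1 := discriminant_mul_discriminantEquiv (toCuspForm (g - c • f0) hcusp)
  have h2 : (⇑g : ℍ → ℂ) = c • ⇑f0 + ModularForm.discriminant *
      ⇑(CuspForm.discriminantEquiv (toCuspForm (g - c • f0) hcusp)) := by
    rw [h1]
    funext z
    simp [toCuspForm_apply]
  rw [h2]
  exact add_mem (Submodule.smul_mem _ _ (Submodule.subset_span hF1)) (disc_mul_mem_span (ih _))

lemma aux (k : ℕ) : ∀ m : ℤ, m < k → ∀ g : ModularForm 𝒮ℒ m,
    (⇑g : ℍ → ℂ) ∈ Submodule.span ℂ (FA_IS_intForms 𝒮ℒ m) := by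
  induction k with
  | zero =>
    intro m hm g
    rw [ModularFormClass.levelOne_neg_weight_eq_zero (by simpa using hm) g]
    exact zero_mem _
  | succ k ih =>
    intro m hm g
    rcases lt_or_eq_of_le (Int.lt_add_one_iff.mp (by exact_mod_cast hm) : m ≤ k) with h | rfl
    · exact ih m h g
    rcases Nat.even_or_odd k with hk2 | hk2
    · by_cases hk4 : 4 ≤ k
      · obtain ⟨F, hF⟩ := exists_good k hk4 hk2
        exact step g hF (fun h => ih _ (by omega) h)
      · have : k = 0 ∨ k = 2 := by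
          obtain ⟨j, rfl⟩ := hk2
          omega
        rcases this with rfl | rfl
        · obtain ⟨c, hc⟩ := ModularFormClass.levelOne_weight_zero_const (F := ModularForm 𝒮ℒ ((0 : ℕ) : ℤ)) g
          have : (⇑g : ℍ → ℂ) = c • (1 : ℍ → ℂ) := by
            rw [hc]; funext z; simp
          rw [this]
          exact Submodule.smul_mem _ _ (Submodule.subset_span good_one.1)
        · have : g = 0 := rank_zero_iff_forall_zero.mp levelOne_weight_two_rank_zero g
          rw [this]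
          exact zero_mem _
    · have : g = 0 := levelOne_odd_weight_eq_zero (by exact_mod_cast hk2) g
      rw [this]
      exact zero_mem _

end FA_IS_L1

/-- C2b -/
theorem FA_IS_levelOne_mem_span (m : ℤ) (g : ModularForm 𝒮ℒ m) :
    (⇑g : ℍ → ℂ) ∈ Submodule.span ℂ (FA_IS_intForms 𝒮ℒ m) :=
  FA_IS_L1.aux (m.toNat + 1) m (by have := Int.self_le_toNat m; push_cast; omega) g
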