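import Mathlib

/-! A purely algebraic Lagrange-interpolation identity. -/

namespace FA_IS

open Finset

variable {ι R : Type*} [Fintype ι] [DecidableEq ι] [CommRing R]

/-- `beta φ t i = ∑_q φ_q e_i(t_{q'} : q' ≠ q)`. -/
def beta (φ t : ι → R) (i : ℕ) : R :=
  ∑ p : ι × Finset ι, if p.2.card = i ∧ p.1 ∉ p.2 then φ p.1 * ∏ q ∈ p.2, t q else 0

lemma prod_sub_eq_sum (t : ι → R) (x : R) (s : Finset ι) :
    ∏ q ∈ s, (x - t q) = ∑ S ∈ s.powerset, (-1) ^ S.card * (∏ q ∈ S, t q) * x ^ (s.card - S.card) := by
  have h : ∀ q ∈ s, x - t q = (- t q) + x := fun q _ => by ring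
  rw [Finset.prod_congr rfl h, Finset.prod_add]
  refine Finset.sum_congr rfl fun S hS => ?_
  rw [Finset.mem_powerset] at hS
  rw [Finset.prod_const, Finset.card_sdiff_of_subset hS, Finset.prod_neg]

theorem interp (φ t : ι → R) (q0 : ι) :
    φ q0 * ∏ q ∈ Finset.univ.erase q0, (t q0 - t q) =
      ∑ i ∈ Finset.range (Fintype.card ι),
        (-1) ^ i * beta φ t i * (t q0) ^ (Fintype.card ι - 1 - i) := by
  classical
  have h1 : φ q0 * ∏ q ∈ Finset.univ.erase q0, (t q0 - t q) =
      ∑ q : ι, φ q * ∏ q' ∈ Finset.univ.erase q, (t q0 - t q') := by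
    rw [Finset.sum_eq_single q0]
    · intro q _ hq
      rw [Finset.prod_eq_zero (i := q0) (by simp [Ne.symm hq]) (by simp), mul_zero]
    · simp
  rw [h1]
  simp only [beta, Finset.mul_sum, Finset.sum_mul]
  rw [Finset.sum_comm, Fintype.sum_prod_type]
  refine Finset.sum_congr rfl fun q _ => ?_
  rw [prod_sub_eq_sum, Finset.mul_sum]
  have hcard : (Finset.univ.erase q).card = Fintype.card ι - 1 := by
    rw [Finset.card_erase_of_mem (Finset.mem_univ q), Finset.card_univ]
  rw [← Finset.sum_subset (Finset.subset_univ ((Finset.univ.erase q).powerset))]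
  · refine Finset.sum_congr rfl fun S hS => ?_
    rw [Finset.mem_powerset] at hS
    have hqS : q ∉ S := fun h => by simpa using hS h
    have hlt : S.card < Fintype.card ι := by
      have := Finset.card_le_card hS
      have hpos : 0 < Fintype.card ι := Fintype.card_pos_iff.mpr ⟨q⟩
      omega
    rw [Finset.sum_eq_single S.card]
    · simp only [hqS, not_false_eq_true, and_self, if_true, hcard]
      ring
    · intro i _ hi
      simp [Ne.symm hi]
    · intro h
      exact absurd (Finset.mem_range.mpr hlt) h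
  · intro S _ hS
    have hqS : q ∈ S := by
      by_contra h
      exact hS (Finset.mem_powerset.mpr fun x hx => by
        simp only [Finset.mem_erase, Finset.mem_univ, and_true]
        rintro rfl
        exact h hx)
    simp [hqS]

end FA_IS
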