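import Fermat.Agent.IntStr.Basic
import Fermat.Agent.IntStr.Interp

/-! Symmetric functions of the translates of modular forms are level one modular forms. -/

open UpperHalfPlane ModularForm Matrix.SpecialLinearGroup OnePoint SlashInvariantForm
open scoped Manifold MatrixGroups ModularForm

namespace FA_IS

variable {𝒢 : Subgroup (GL (Fin 2) ℝ)} [𝒢.IsArithmetic]

/-- the coset space `SL(2,ℤ)/𝒢`. -/
abbrev Q (𝒢 : Subgroup (GL (Fin 2) ℝ)) : Type := 𝒮ℒ ⧸ (𝒢.subgroupOf 𝒮ℒ)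

noncomputable instance : Fintype (Q 𝒢) := Fintype.ofFinite _
noncomputable instance : DecidableEq (Q 𝒢) := Classical.decEq _

variable {F G : Type*} [FunLike F ℍ ℂ] [FunLike G ℍ ℂ] {k w : ℤ}
  [ModularFormClass F 𝒢 k] [ModularFormClass G 𝒢 w]

/-- translates of `f`, indexed by cosets -/
noncomputable abbrev tr (f : F) : Q 𝒢 → ℍ → ℂ := quotientFunc (ℋ := 𝒮ℒ) f

omit [𝒢.IsArithmetic] in
lemma tr_mk (f : F) (γ : SL(2, ℤ)) :
    tr f (⟦⟨mapGL ℝ γ, γ, rfl⟩⟧ : Q 𝒢) = (f : ℍ → ℂ) ∣[k] γ⁻¹ := by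
  rw [tr, quotientFunc_mk]
  show _ = (f : ℍ → ℂ) ∣[k] (mapGL ℝ γ⁻¹)
  rw [map_inv]

omit [𝒢.IsArithmetic] in
lemma exists_tr_eq (f : F) (q : Q 𝒢) : ∃ γ : SL(2, ℤ),
    q = (⟦⟨mapGL ℝ γ, γ, rfl⟩⟧ : Q 𝒢) ∧ tr f q = (f : ℍ → ℂ) ∣[k] γ⁻¹ := by
  induction q using Quotient.inductionOn with
  | h r =>
    obtain ⟨_, γ, rfl⟩ := r
    exact ⟨γ, rfl, tr_mk f γ⟩

omit [𝒢.IsArithmetic] in
lemma tr_mdiff (f : F) (q : Q 𝒢) : MDiff (tr f q) := by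
  obtain ⟨γ, -, h⟩ := exists_tr_eq f q
  rw [h, SL_slash]
  exact (ModularFormClass.holo f).slash k _

lemma tr_bdd (f : F) (q : Q 𝒢) : IsBoundedAtImInfty (tr f q) := by
  obtain ⟨γ, -, h⟩ := exists_tr_eq f q
  rw [h]
  exact ModularFormClass.bdd_at_infty_slash f γ⁻¹

omit [𝒢.IsArithmetic] in
lemma tr_slash (f : F) (q : Q 𝒢) (γ : SL(2, ℤ)) :
    tr f q ∣[k] γ = tr f ((⟨mapGL ℝ γ, γ, rfl⟩ : 𝒮ℒ)⁻¹ • q) := by
  rw [SL_slash]
  exact quotientFunc_smul f _ q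

lemma prod_slash_SL {ι : Type*} (s : Finset ι) (t : ι → ℍ → ℂ) (γ : SL(2, ℤ)) :
    (∏ i ∈ s, t i) ∣[w * s.card] γ = ∏ i ∈ s, (t i ∣[w] γ) := by
  rw [SL_slash, ModularForm.prod_slash]
  simp [SL_slash]

/-- the permutation of pairs induced by an element of `SL(2,ℤ)` -/
noncomputable def pairPerm (𝒢 : Subgroup (GL (Fin 2) ℝ)) (γ : SL(2, ℤ)) :
    Q 𝒢 × Finset (Q 𝒢) ≃ Q 𝒢 × Finset (Q 𝒢) :=
  Equiv.prodCongr (MulAction.toPerm ((⟨mapGL ℝ γ, γ, rfl⟩ : 𝒮ℒ)⁻¹))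
    (Equiv.finsetCongr (MulAction.toPerm ((⟨mapGL ℝ γ, γ, rfl⟩ : 𝒮ℒ)⁻¹)))

lemma beta_slash (f : F) (T : G) (i : ℕ) (γ : SL(2, ℤ)) :
    beta (tr f) (tr T) i ∣[k + w * i] γ = beta (tr (𝒢 := 𝒢) f) (tr T) i := by
  unfold beta
  rw [SlashAction.sum_slash]
  conv_rhs => rw [← Equiv.sum_comp (pairPerm 𝒢 γ)]
  refine Finset.sum_congr rfl fun p _ => ?_
  obtain ⟨q, S⟩ := p
  have hmem : ((⟨mapGL ℝ γ, γ, rfl⟩ : 𝒮ℒ)⁻¹ • q) ∈
      S.map (MulAction.toPerm ((⟨mapGL ℝ γ, γ, rfl⟩ : 𝒮ℒ)⁻¹)).toEmbedding ↔ q ∈ S :=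
    Finset.mem_map' (MulAction.toPerm ((⟨mapGL ℝ γ, γ, rfl⟩ : 𝒮ℒ)⁻¹)).toEmbedding
  simp only [pairPerm, Equiv.prodCongr_apply, Prod.map_apply, Equiv.finsetCongr_apply,
    Finset.card_map, Finset.prod_map, Equiv.coe_toEmbedding, MulAction.toPerm_apply, hmem]
  split_ifs with h
  · obtain ⟨rfl, -⟩ := h
    rw [mul_slash_SL2, prod_slash_SL, tr_slash]
    simp only [tr_slash]
  · exact SlashAction.zero_slash (k + w * (i : ℤ)) γ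

lemma beta_mdiff (f : F) (T : G) (i : ℕ) : MDiff (beta (tr (𝒢 := 𝒢) f) (tr T) i) := by
  unfold beta
  refine MDifferentiable.sum fun p _ => ?_
  split_ifs
  · exact (tr_mdiff f _).mul (MDifferentiable.prod fun q _ => tr_mdiff T q)
  · exact mdifferentiable_const

end FA_IS

namespace FA_IS

section bounds

variable {ι : Type} [Fintype ι] [DecidableEq ι] {φ t : ι → ℍ → ℂ}

lemma prod_bdd (ht : ∀ q, IsBoundedAtImInfty (t q)) (S : Finset ι) :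
    IsBoundedAtImInfty (∏ q ∈ S, t q) :=
  Filter.BoundedAtFilter.prod S fun q _ => ht q

lemma sum_bdd {κ : Type*} (s : Finset κ) {g : κ → ℍ → ℂ}
    (hg : ∀ p ∈ s, IsBoundedAtImInfty (g p)) : IsBoundedAtImInfty (∑ p ∈ s, g p) :=
  (boundedAtImInftySubalgebra ℂ).sum_mem hg

lemma sum_zeroAt {κ : Type*} (s : Finset κ) {g : κ → ℍ → ℂ}
    (hg : ∀ p ∈ s, IsZeroAtImInfty (g p)) : IsZeroAtImInfty (∑ p ∈ s, g p) :=
  (zeroAtImInftySubmodule ℂ).sum_mem hg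

lemma beta_bdd (hφ : ∀ q, IsBoundedAtImInfty (φ q)) (ht : ∀ q, IsBoundedAtImInfty (t q)) (i : ℕ) :
    IsBoundedAtImInfty (beta φ t i) := by
  unfold beta
  refine sum_bdd _ fun p _ => ?_
  split_ifs
  · exact (hφ _).mul (prod_bdd ht _)
  · exact zero_form_isBoundedAtImInfty

lemma beta_zero_left (hφ : ∀ q, IsZeroAtImInfty (φ q)) (ht : ∀ q, IsBoundedAtImInfty (t q))
    (i : ℕ) : IsZeroAtImInfty (beta φ t i) := by
  unfold beta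
  refine sum_zeroAt _ fun p _ => ?_
  split_ifs
  · exact (hφ _).mul_boundedAtFilter (prod_bdd ht _)
  · exact Filter.zero_zeroAtFilter _

lemma beta_zero_right (hφ : ∀ q, IsBoundedAtImInfty (φ q)) (ht : ∀ q, IsZeroAtImInfty (t q))
    {i : ℕ} (hi : 0 < i) : IsZeroAtImInfty (beta φ t i) := by
  unfold beta
  refine sum_zeroAt _ fun p _ => ?_
  split_ifs with h
  · obtain ⟨q, hq⟩ : p.2.Nonempty := Finset.card_pos.mp (h.1 ▸ hi)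
    rw [← Finset.mul_prod_erase _ _ hq]
    exact (hφ _).mul_zeroAtFilter
      ((ht q).mul_boundedAtFilter (prod_bdd (fun q => (ht q).isBoundedAtImInfty) _))
  · exact Filter.zero_zeroAtFilter _

end bounds

variable {𝒢 : Subgroup (GL (Fin 2) ℝ)} [𝒢.IsArithmetic]
variable {F G : Type*} [FunLike F ℍ ℂ] [FunLike G ℍ ℂ] {k w : ℤ}

lemma tr_zeroAt [CuspFormClass F 𝒢 k] (f : F) (q : Q 𝒢) : IsZeroAtImInfty (tr f q) := by
  obtain ⟨γ, -, h⟩ := exists_tr_eq f q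
  rw [h]
  exact CuspFormClass.zero_at_infty_slash f γ⁻¹

/-- The level-one modular form `∑_q f_q e_i(T_{q'} : q' ≠ q)`. -/
theorem beta_mem_MFfun [ModularFormClass F 𝒢 k] [ModularFormClass G 𝒢 w] (f : F) (T : G) (i : ℕ)
    {m : ℤ} (hm : m = k + w * i) : beta (tr (𝒢 := 𝒢) f) (tr T) i ∈ MFfun 𝒮ℒ m := by
  subst hm
  refine ⟨mkMF 𝒮ℒ _ (beta (tr (𝒢 := 𝒢) f) (tr T) i) ?_ (beta_mdiff f T i) ?_, rfl⟩
  · rintro _ ⟨γ, rfl⟩
    exact beta_slash f T i γ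
  · intro γ
    rw [beta_slash]
    exact beta_bdd (tr_bdd f) (tr_bdd T) i

end FA_IS
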