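import Fermat.Agent.IntStr.AffQ
import Fermat.Agent.IntStr.Sym
import Fermat.Prelude.Thm_CongruenceSubgroup_one_mem_strictPeriods_Gamma0

/-! The form `τ ↦ f (Nτ)` of level `Γ₀(N)` and its translates. -/

open UpperHalfPlane ModularForm Matrix.SpecialLinearGroup OnePoint CongruenceSubgroup Function
open scoped Manifold MatrixGroups ModularForm Real

namespace FA_IS

/-- `Γ₀(N)` inside `GL₂(ℝ)` -/
abbrev GG (N : ℕ) : Subgroup (GL (Fin 2) ℝ) := (Gamma0 N).map (mapGL ℝ)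

lemma one_mem_strictPeriods_GG (N : ℕ) : (1 : ℝ) ∈ (GG N).strictPeriods :=
  CongruenceSubgroup.one_mem_strictPeriods_Gamma0 N

lemma GG_le (N : ℕ) : GG N ≤ 𝒮ℒ := by
  rintro _ ⟨γ, -, rfl⟩
  exact ⟨γ, rfl⟩

lemma compAff_int_shift {F : ℍ → ℂ} (hF : Nice 1 F) (a : ℕ) (b : ℤ) :
    compAff F a 1 b = compAff F a 1 0 := by
  funext τ
  have h := hF.per.int_mul b ((a : ℂ) * τ)
  simp only [compAff, affPt, comp_apply] at h ⊢
  simpa using h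

lemma nice_levelOne (k : ℤ) {Fk : Type*} [FunLike Fk ℍ ℂ] [ModularFormClass Fk 𝒮ℒ k] (f : Fk) :
    Nice 1 f :=
  Nice.of_modularForm (Γ := 𝒮ℒ) (k := k) f one_pos one_mem_strictPeriods_SL

variable {Fk : Type*} [FunLike Fk ℍ ℂ] {k : ℤ} [ModularFormClass Fk 𝒮ℒ k]

variable (N : ℕ) [NeZero N]

/-- `τ ↦ f (N τ)` as a modular form of level `Γ₀(N)`. -/
noncomputable def lvl (f : Fk) : ModularForm (GG N) k :=
  mkMF (GG N) k (compAff f N 1 0)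
    (by
      rintro _ ⟨γ, hγ, rfl⟩
      obtain ⟨a, d, b, ha, hd, had, hd1, h⟩ := compAff_slash f N γ
      have hd' : d = 1 := hd1.mpr hγ
      subst hd'
      have ha' : a = N := by simpa using had
      subst ha'
      show compAff f a 1 0 ∣[k] γ = _
      rw [h, compAff_int_shift (nice_levelOne k f)]
      simp)
    (compAff_nice (nice_levelOne k f) (Nat.pos_of_ne_zero (NeZero.ne N)) one_pos (mul_one N) 0).hol
    (by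
      intro γ
      obtain ⟨a, d, b, ha, hd, had, hd1, h⟩ := compAff_slash f N γ
      rw [h]
      exact ((compAff_nice (nice_levelOne k f) ha hd had b).smul _).bdd)

lemma coe_lvl (f : Fk) : ⇑(lvl N f) = compAff f N 1 0 := rfl

/-- the trivial coset -/
noncomputable def q0 (𝒢 : Subgroup (GL (Fin 2) ℝ)) : Q 𝒢 := ((1 : 𝒮ℒ) : 𝒮ℒ ⧸ (𝒢.subgroupOf 𝒮ℒ))

lemma tr_q0 {𝒢 : Subgroup (GL (Fin 2) ℝ)} {F : Type*} [FunLike F ℍ ℂ] {w : ℤ}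
    [ModularFormClass F 𝒢 w] (f : F) : tr f (q0 𝒢) = f := by
  have h := tr_mk (𝒢 := 𝒢) f 1
  have e : (⟦⟨mapGL ℝ (1 : SL(2, ℤ)), 1, rfl⟩⟧ : Q 𝒢) = q0 𝒢 := by
    unfold q0
    congr 1
    ext1
    simp
  rw [e] at h
  rw [h]
  simp

omit [NeZero N] in
lemma mk_eq_q0_iff (γ : SL(2, ℤ)) :
    (⟦⟨mapGL ℝ γ, γ, rfl⟩⟧ : Q (GG N)) = q0 (GG N) ↔ γ⁻¹ ∈ Gamma0 N := by
  unfold q0
  have : (⟦⟨mapGL ℝ γ, γ, rfl⟩⟧ : Q (GG N)) =
    ((⟨mapGL ℝ γ, γ, rfl⟩ : 𝒮ℒ) : 𝒮ℒ ⧸ ((GG N).subgroupOf 𝒮ℒ)) := rfl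
  rw [this, QuotientGroup.eq, Subgroup.mem_subgroupOf]
  simp only [mul_one, Subgroup.coe_inv]
  rw [← map_inv, Subgroup.mem_map_iff_mem mapGL_injective]

lemma tr_lvl (f : Fk) (q : Q (GG N)) :
    ∃ (a d : ℕ) (b : ℤ), 0 < a ∧ 0 < d ∧ a * d = N ∧ (d = 1 ↔ q = q0 (GG N)) ∧
      tr (lvl N f) q = ((d : ℂ) ^ k)⁻¹ • compAff f a d b := by
  obtain ⟨γ, hq, h⟩ := exists_tr_eq (lvl N f) q
  obtain ⟨a, d, b, ha, hd, had, hd1, h'⟩ := compAff_slash f N γ⁻¹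
  refine ⟨a, d, b, ha, hd, had, ?_, ?_⟩
  · rw [hd1, hq, mk_eq_q0_iff]
  · rw [h, coe_lvl, h']

end FA_IS
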