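import Mathlib

/-!
# Bounded denominators (algebraic part)
-/

/-- The power series all of whose coefficients lie in a given subring. -/
noncomputable def FA_IS_coeffSubring {A : Type*} [CommRing A] (R : Subring A) : Subring (PowerSeries A) :=
  (PowerSeries.map R.subtype).range

theorem FA_IS_mem_coeffSubring {A : Type*} [CommRing A] (R : Subring A) (f : PowerSeries A) :
    f ∈ FA_IS_coeffSubring R ↔ ∀ n, PowerSeries.coeff n f ∈ R := by
  constructor
  · rintro ⟨g, rfl⟩ n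
    rw [PowerSeries.coeff_map]
    exact (PowerSeries.coeff n g).2
  · intro h
    refine ⟨PowerSeries.mk fun n => ⟨PowerSeries.coeff n f, h n⟩, ?_⟩
    ext n
    simp

theorem FA_IS_C_mem_coeffSubring {A : Type*} [CommRing A] (R : Subring A) {a : A} (ha : a ∈ R) :
    PowerSeries.C a ∈ FA_IS_coeffSubring R :=
  ⟨PowerSeries.C (⟨a, ha⟩ : R), by simp⟩

theorem FA_IS_X_mem_coeffSubring {A : Type*} [CommRing A] (R : Subring A) :
    (PowerSeries.X : PowerSeries A) ∈ FA_IS_coeffSubring R :=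
  ⟨PowerSeries.X, by simp⟩

/-- A power series with coefficients in `R` and constant coefficient `1` has an inverse with
coefficients in `R`. -/
theorem FA_IS_exists_inv_mem_coeffSubring {A : Type*} [CommRing A] (R : Subring A)
    (u : PowerSeries A) (hu : u ∈ FA_IS_coeffSubring R) (hu0 : PowerSeries.constantCoeff u = 1) :
    ∃ t ∈ FA_IS_coeffSubring R, u * t = 1 := by
  obtain ⟨u', rfl⟩ := hu
  have h1 : PowerSeries.constantCoeff u' = 1 := by
    apply Subtype.ext
    have : PowerSeries.constantCoeff (PowerSeries.map R.subtype u')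
        = R.subtype (PowerSeries.constantCoeff u') := by
      rw [← PowerSeries.coeff_zero_eq_constantCoeff_apply, PowerSeries.coeff_map,
        PowerSeries.coeff_zero_eq_constantCoeff_apply]
    rw [this] at hu0
    simpa using hu0
  have hunit : IsUnit u' := PowerSeries.isUnit_iff_constantCoeff.2 (by rw [h1]; exact isUnit_one)
  obtain ⟨t', ht'⟩ := hunit.exists_right_inv
  exact ⟨PowerSeries.map R.subtype t', ⟨t', rfl⟩, by rw [← map_mul, ht', map_one]⟩

/-- An algebraic number has a positive integer multiple which is an algebraic integer. -/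
theorem FA_IS_exists_nat_mul_isIntegral (z : ℂ) (hz : IsAlgebraic ℚ z) :
    ∃ d : ℕ, 0 < d ∧ IsIntegral ℤ ((d : ℂ) * z) := by
  have hz' : IsAlgebraic ℤ z := (IsFractionRing.isAlgebraic_iff ℤ ℚ ℂ).2 hz
  obtain ⟨y, hy0, hy⟩ := hz'.exists_integral_multiple
  refine ⟨y.natAbs, Int.natAbs_pos.2 hy0, ?_⟩
  rw [zsmul_eq_mul] at hy
  rcases Int.natAbs_eq y with h | h
  · have : ((y.natAbs : ℕ) : ℂ) = (y : ℂ) := by
      conv_rhs => rw [h]
      simp
    rw [this]; exact hy
  · have : ((y.natAbs : ℕ) : ℂ) = -(y : ℂ) := by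
      conv_rhs => rw [h]
      simp
    rw [this, neg_mul]; exact hy.neg

/-- A rational number which is an algebraic integer is an integer. -/
theorem FA_IS_exists_int_of_isIntegral_rat (r : ℚ) (h : IsIntegral ℤ (r : ℂ)) :
    ∃ m : ℤ, (r : ℂ) = (m : ℂ) := by
  have h1 : IsIntegral ℤ r := by
    have : (r : ℂ) = algebraMap ℚ ℂ r := by simp
    rw [this] at h
    exact (isIntegral_algebraMap_iff (algebraMap ℚ ℂ).injective).1 h
  obtain ⟨m, hm⟩ := IsIntegrallyClosed.isIntegral_iff.1 h1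
  refine ⟨m, ?_⟩
  rw [← hm]
  simp

/-- There is an additive retraction of `ℂ` onto the field of algebraic numbers. -/
theorem FA_IS_exists_retraction :
    ∃ P : ℂ →+ ℂ, (∀ x, IsAlgebraic ℚ (P x)) ∧ ∀ x, IsAlgebraic ℚ x → P x = x := by
  let K := algebraicClosure ℚ ℂ
  obtain ⟨π, hπ⟩ := LinearMap.exists_leftInverse_of_injective (Algebra.linearMap K ℂ)
    (LinearMap.ker_eq_bot.2 (algebraMap K ℂ).injective)
  refine ⟨((Algebra.linearMap K ℂ).comp π).toAddMonoidHom, fun x => ?_, fun x hx => ?_⟩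
  · exact mem_algebraicClosure_iff.1 (π x).2
  · have h := LinearMap.congr_fun hπ (⟨x, mem_algebraicClosure_iff.2 hx⟩ : K)
    have h' : π x = ⟨x, mem_algebraicClosure_iff.2 hx⟩ := h
    show algebraMap K ℂ (π x) = x
    rw [h']
    rfl

/-- C9-alg -/
theorem FA_IS_bounded_denominators
    (φ : PowerSeries ℂ) (hφ : ∀ n, ∃ r : ℚ, PowerSeries.coeff n φ = (r : ℂ))
    (c : ℂ) (hc0 : c ≠ 0) (hc : IsAlgebraic ℚ c) (M : ℕ) (u : PowerSeries ℂ)
    (hu : ∀ n, IsIntegral ℤ (PowerSeries.coeff n u)) (hu0 : PowerSeries.constantCoeff u = 1)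
    {ι : Type*} (s : Finset ι) (z : ι → ℂ) (V : ι → PowerSeries ℂ)
    (hV : ∀ j ∈ s, ∀ n, ∃ m : ℤ, PowerSeries.coeff n (V j) = (m : ℂ))
    (hrel : (PowerSeries.C c * PowerSeries.X ^ M * u) * φ = ∑ j ∈ s, PowerSeries.C (z j) * V j) :
    ∃ D : ℕ, 0 < D ∧ ∀ n, ∃ m : ℤ, (D : ℂ) * PowerSeries.coeff n φ = (m : ℂ) := by
  classical
  -- the two subrings
  let K : Subring ℂ := (algebraicClosure ℚ ℂ).toSubfield.toSubring
  let R : Subring ℂ := (integralClosure ℤ ℂ).toSubring
  have hK : ∀ x : ℂ, x ∈ K ↔ IsAlgebraic ℚ x := fun x => mem_algebraicClosure_iff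
  have hR : ∀ x : ℂ, x ∈ R ↔ IsIntegral ℤ x := fun x => Iff.rfl
  have hRK : ∀ x : ℂ, IsIntegral ℤ x → x ∈ K := fun x hx =>
    (hK x).2 ((IsFractionRing.isAlgebraic_iff ℤ ℚ ℂ).1 hx.isAlgebraic)
  obtain ⟨P, hP1, hP2⟩ := FA_IS_exists_retraction
  -- Step 1: replace `z j` by algebraic numbers
  have hL : (PowerSeries.C c * PowerSeries.X ^ M * u) * φ ∈ FA_IS_coeffSubring K := by
    refine mul_mem (mul_mem (mul_mem (FA_IS_C_mem_coeffSubring K ((hK c).2 hc))
      (pow_mem (FA_IS_X_mem_coeffSubring K) M)) ?_) ?_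
    · exact (FA_IS_mem_coeffSubring K u).2 fun n => hRK _ (hu n)
    · refine (FA_IS_mem_coeffSubring K φ).2 fun n => ?_
      obtain ⟨r, hr⟩ := hφ n
      rw [hr]
      exact (hK _).2 (by
        have : (r : ℂ) = algebraMap ℚ ℂ r := by simp
        rw [this]; exact isAlgebraic_algebraMap r)
  have hrel' : (PowerSeries.C c * PowerSeries.X ^ M * u) * φ
      = ∑ j ∈ s, PowerSeries.C (P (z j)) * V j := by
    ext n
    have h1 := (FA_IS_mem_coeffSubring K _).1 hL n
    have h2 := hP2 _ ((hK _).1 h1)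
    rw [← h2, hrel, map_sum, map_sum, map_sum]
    refine Finset.sum_congr rfl fun j hj => ?_
    obtain ⟨m, hm⟩ := hV j hj n
    rw [PowerSeries.coeff_C_mul, PowerSeries.coeff_C_mul, hm, mul_comm, ← zsmul_eq_mul,
      map_zsmul, zsmul_eq_mul, mul_comm]
  -- Step 2: common denominator
  have hd : ∀ j : ι, ∃ d : ℕ, 0 < d ∧ IsIntegral ℤ ((d : ℂ) * (P (z j) / c)) := fun j =>
    FA_IS_exists_nat_mul_isIntegral _ ((hK _).1 (by
      rw [div_eq_mul_inv]
      exact mul_mem ((hK _).2 (hP1 (z j)))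
        ((algebraicClosure ℚ ℂ).inv_mem (mem_algebraicClosure_iff.2 hc))))
  choose d hd0 hdint using hd
  let D : ℕ := ∏ j ∈ s, d j
  have hD0 : 0 < D := Finset.prod_pos fun j _ => hd0 j
  have hDint : ∀ j ∈ s, IsIntegral ℤ ((D : ℂ) * (P (z j) / c)) := by
    intro j hj
    obtain ⟨e, he⟩ := Finset.dvd_prod_of_mem d hj
    have : (D : ℂ) * (P (z j) / c) = (e : ℂ) * ((d j : ℂ) * (P (z j) / c)) := by
      have : (D : ℂ) = (d j : ℂ) * (e : ℂ) := by exact_mod_cast he
      rw [this]; ring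
    rw [this]
    exact (isIntegral_natCast (R := ℤ) (B := ℂ) e).mul (hdint j)
  -- Step 3
  obtain ⟨t, ht, hut⟩ := FA_IS_exists_inv_mem_coeffSubring R u
    ((FA_IS_mem_coeffSubring R u).2 hu) hu0
  have hW : ∑ j ∈ s, PowerSeries.C ((D : ℂ) * (P (z j) / c)) * V j ∈ FA_IS_coeffSubring R := by
    refine sum_mem fun j hj => mul_mem (FA_IS_C_mem_coeffSubring R (hDint j hj)) ?_
    refine (FA_IS_mem_coeffSubring R _).2 fun n => ?_
    obtain ⟨m, hm⟩ := hV j hj n
    rw [hm]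
    exact (hR _).2 (isIntegral_intCast m)
  have hkey : PowerSeries.X ^ M * (PowerSeries.C (D : ℂ) * φ)
      = t * ∑ j ∈ s, PowerSeries.C ((D : ℂ) * (P (z j) / c)) * V j := by
    have h1 : ∑ j ∈ s, PowerSeries.C ((D : ℂ) * (P (z j) / c)) * V j
        = PowerSeries.C ((D : ℂ) / c) * ∑ j ∈ s, PowerSeries.C (P (z j)) * V j := by
      rw [Finset.mul_sum]
      refine Finset.sum_congr rfl fun j _ => ?_
      rw [← mul_assoc, ← map_mul]
      congr 2
      ring
    rw [h1, ← hrel']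
    have h2 : PowerSeries.C ((D : ℂ) / c) * PowerSeries.C c = PowerSeries.C (D : ℂ) := by
      rw [← map_mul, div_mul_cancel₀ _ hc0]
    calc PowerSeries.X ^ M * (PowerSeries.C (D : ℂ) * φ)
        = (u * t) * (PowerSeries.X ^ M * (PowerSeries.C (D : ℂ) * φ)) := by rw [hut, one_mul]
      _ = t * ((PowerSeries.C ((D : ℂ) / c) * PowerSeries.C c) * PowerSeries.X ^ M * u * φ) := by
          rw [h2]; ring
      _ = _ := by ring
  have hmem : PowerSeries.X ^ M * (PowerSeries.C (D : ℂ) * φ) ∈ FA_IS_coeffSubring R := by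
    rw [hkey]; exact mul_mem ht hW
  refine ⟨D, hD0, fun n => ?_⟩
  have h1 := (FA_IS_mem_coeffSubring R _).1 hmem (n + M)
  rw [PowerSeries.coeff_X_pow_mul, PowerSeries.coeff_C_mul] at h1
  obtain ⟨r, hr⟩ := hφ n
  rw [hr] at h1 ⊢
  have h2 : (D : ℂ) * (r : ℂ) = (((D : ℚ) * r : ℚ) : ℂ) := by push_cast; ring
  rw [h2] at h1 ⊢
  exact FA_IS_exists_int_of_isIntegral_rat _ ((hR _).1 h1)
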