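import Mathlib

/-!
# The fixed field of `Aut(ℂ)` is `ℚ`
-/

/-- Every ring automorphism of a subfield `k` of an algebraically closed field `K` extends to
a ring automorphism of `K`. -/
theorem FA_IS_exists_ringEquiv_extend {k K : Type*} [Field k] [Field K] [Algebra k K]
    [IsAlgClosed K] (τ : k ≃+* k) :
    ∃ σ : K ≃+* K, ∀ x : k, σ (algebraMap k K x) = algebraMap k K (τ x) := by
  classical
  obtain ⟨ι, v, hv⟩ := exists_isTranscendenceBasis' k K
  let _i := IsAlgClosed.isAlgClosure_of_transcendence_basis v hv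
  let e : Algebra.adjoin k (Set.range v) ≃+* Algebra.adjoin k (Set.range v) :=
    (hv.1.aevalEquiv.symm.toRingEquiv.trans (MvPolynomial.mapEquiv ι τ)).trans
      hv.1.aevalEquiv.toRingEquiv
  refine ⟨IsAlgClosure.equivOfEquiv K K e, fun x => ?_⟩
  have h1 : algebraMap k K x
      = algebraMap (Algebra.adjoin k (Set.range v)) K
          (algebraMap k (Algebra.adjoin k (Set.range v)) x) := rfl
  have h2 : algebraMap k K (τ x)
      = algebraMap (Algebra.adjoin k (Set.range v)) K
          (algebraMap k (Algebra.adjoin k (Set.range v)) (τ x)) := rfl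
  rw [h1, h2, IsAlgClosure.equivOfEquiv_algebraMap]
  congr 1
  have h3 : hv.1.aevalEquiv.symm (algebraMap k (Algebra.adjoin k (Set.range v)) x)
      = MvPolynomial.C x := by
    rw [AlgEquiv.commutes]; rfl
  have h4 : hv.1.aevalEquiv (MvPolynomial.C (τ x))
      = algebraMap k (Algebra.adjoin k (Set.range v)) (τ x) := by
    rw [← MvPolynomial.algebraMap_eq, AlgEquiv.commutes]
  show hv.1.aevalEquiv (MvPolynomial.mapEquiv ι τ (hv.1.aevalEquiv.symm _)) = _
  rw [h3]
  simp only [MvPolynomial.mapEquiv_apply, MvPolynomial.map_C]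
  exact h4

/-- An element of an algebraically closed field `K` which is transcendental over a subfield `F`
is moved by some automorphism of `K`. -/
theorem FA_IS_exists_ringAut_ne_of_transcendental {F K : Type*} [Field F] [Field K] [Algebra F K]
    [IsAlgClosed K] (z : K) (hz : Transcendental F z) :
    ∃ σ : K ≃+* K, σ z ≠ z := by
  classical
  let e1 : RatFunc F ≃ₐ[F] IntermediateField.adjoin F {z} :=
    RatFunc.algEquivOfTranscendental z hz
  let φ : RatFunc F →+* K :=
    ((IntermediateField.adjoin F {z}).val.comp e1.toAlgHom).toRingHom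
  let _i : Algebra (RatFunc F) K := φ.toAlgebra
  let τ : RatFunc F ≃ₐ[F] RatFunc F :=
    IsFractionRing.algEquivOfAlgEquiv (Polynomial.algEquivAevalXAddC (1 : F))
  obtain ⟨σ, hσ⟩ := FA_IS_exists_ringEquiv_extend (K := K) τ.toRingEquiv
  refine ⟨σ, ?_⟩
  have hX : algebraMap (RatFunc F) K RatFunc.X = z := by
    show ((e1 RatFunc.X : IntermediateField.adjoin F {z}) : K) = z
    simp [e1]
  have hτ : τ RatFunc.X = RatFunc.X + 1 := by
    rw [← RatFunc.algebraMap_X]
    simp only [τ, IsFractionRing.algEquivOfAlgEquiv_algebraMap]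
    simp [Polynomial.algEquivAevalXAddC]
  have h := hσ RatFunc.X
  rw [hX] at h
  have h' : σ z = z + 1 := by
    rw [h]
    show algebraMap (RatFunc F) K (τ RatFunc.X) = _
    rw [hτ, map_add, hX, map_one]
  rw [h']
  simp

/-- An element of an algebraically closed field `K` which is algebraic over a subfield `F` of
characteristic zero and fixed by all automorphisms of `K` lies in `F`. -/
theorem FA_IS_exists_of_isAlgebraic_of_fixed {F K : Type*} [Field F] [CharZero F] [Field K]
    [Algebra F K] [IsAlgClosed K] (z : K) (halg : IsAlgebraic F z)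
    (hz : ∀ σ : K ≃+* K, σ z = z) : ∃ r : F, algebraMap F K r = z := by
  classical
  let k := algebraicClosure F K
  have hzk : z ∈ k := (mem_algebraicClosure_iff).2 halg
  have _i1 : IsAlgClosure F k := algebraicClosure.isAlgClosure F K
  have _i2 : Normal F k := IsAlgClosure.normal F k
  have _i3 : IsGalois F k := ⟨⟩
  have hfix : ∀ f : Gal(k/F), f ⟨z, hzk⟩ = ⟨z, hzk⟩ := by
    intro f
    obtain ⟨σ, hσ⟩ := FA_IS_exists_ringEquiv_extend (K := K) f.toRingEquiv
    have h := hσ ⟨z, hzk⟩
    have h1 : algebraMap k K ⟨z, hzk⟩ = z := rfl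
    rw [h1, hz σ] at h
    apply Subtype.ext
    exact h.symm
  obtain ⟨r, hr⟩ := (InfiniteGalois.mem_range_algebraMap_iff_fixed (k := F) (K := k) ⟨z, hzk⟩).2 hfix
  refine ⟨r, ?_⟩
  have := congrArg (algebraMap k K) hr
  simpa using this

/-- **The fixed field of `Aut(ℂ)` is `ℚ`.** -/
theorem FA_IS_exists_rat_of_forall_ringAut_fixed (z : ℂ) (hz : ∀ σ : ℂ ≃+* ℂ, σ z = z) :
    ∃ r : ℚ, (r : ℂ) = z := by
  by_cases halg : IsAlgebraic ℚ z
  · obtain ⟨r, hr⟩ := FA_IS_exists_of_isAlgebraic_of_fixed z halg hz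
    exact ⟨r, by rw [← hr]; simp⟩
  · obtain ⟨σ, hσ⟩ := FA_IS_exists_ringAut_ne_of_transcendental z halg
    exact absurd (hz σ) hσ
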