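import Mathlib
import Fermat.Agent.IntStr.AutC

/-!
# `Aut(ℂ)`-descent for finite-dimensional spaces of "`q`-expansions"
-/

open Module in
/-- If a finite-dimensional complex vector space `V` embeds in `ℂ^ℕ` through the coordinate
functionals `a n`, and its image is stable under `Aut(ℂ)` acting coefficientwise, then `V` is
spanned by the vectors all of whose coordinates are rational. -/
theorem FA_IS_span_rational_eq_top {V : Type*} [AddCommGroup V] [Module ℂ V]
    [FiniteDimensional ℂ V] (a : ℕ → V →ₗ[ℂ] ℂ) (hinj : ∀ v, (∀ n, a n v = 0) → v = 0)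
    (hσ : ∀ (σ : ℂ ≃+* ℂ) (v : V), ∃ v' : V, ∀ n, a n v' = σ (a n v)) :
    Submodule.span ℂ {v : V | ∀ n, ∃ r : ℚ, a n v = (r : ℂ)} = ⊤ := by
  classical
  -- the functionals `a n` span the dual
  have hspan : Submodule.span ℂ (Set.range a) = (⊤ : Submodule ℂ (Dual ℂ V)) := by
    have h1 : (Submodule.span ℂ (Set.range a)).dualCoannihilator = ⊥ := by
      rw [eq_bot_iff]
      intro v hv
      rw [Submodule.mem_dualCoannihilator] at hv
      exact (Submodule.mem_bot ℂ).2 (hinj v fun n => hv (a n) (Submodule.subset_span ⟨n, rfl⟩))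
    have h2 := Subspace.dualCoannihilator_dualAnnihilator_eq
      (W := Submodule.span ℂ (Set.range a))
    rw [h1, Submodule.dualAnnihilator_bot] at h2
    exact h2.symm
  -- extract a basis
  obtain ⟨b, hb, hbspan, hblin⟩ := exists_linearIndependent ℂ (Set.range a)
  let B : Basis b ℂ (Dual ℂ V) := Basis.mk hblin (by
    rw [Subtype.range_coe_subtype, Set.ofPred_mem_eq, hbspan, hspan])
  have hB : ∀ i : b, B i = i.1 := fun i => by simp [B]
  have _fin : Finite b := Module.Finite.finite_basis B
  have _fint : Fintype b := Fintype.ofFinite b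
  -- the dual basis
  let w : Basis b ℂ V := B.dualBasis.map (evalEquiv ℂ V).symm
  have hw : ∀ i j : b, (i.1 : Dual ℂ V) (w j) = if j = i then 1 else 0 := by
    intro i j
    have h1 : evalEquiv ℂ V (w j) = B.dualBasis j := by simp [w]
    have h2 : evalEquiv ℂ V (w j) (B i) = B i (w j) := by simp
    rw [← hB i, ← h2, h1]
    simp [Finsupp.single_apply, eq_comm]
  -- separation by the basis
  have hsep : ∀ v : V, (∀ i : b, (i.1 : Dual ℂ V) v = 0) → v = 0 := by
    intro v hv
    have h0 : Dual.eval ℂ V v = 0 := by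
      apply B.ext
      intro i
      rw [hB i]
      simpa using hv i
    exact (Module.forall_dual_apply_eq_zero_iff ℂ v).1 fun f => by
      simpa using LinearMap.congr_fun h0 f
  -- each `w j` is rational
  have hrat : ∀ j : b, w j ∈ {v : V | ∀ n, ∃ r : ℚ, a n v = (r : ℂ)} := by
    intro j n
    have hfix : ∀ σ : ℂ ≃+* ℂ, σ (a n (w j)) = a n (w j) := by
      intro σ
      obtain ⟨v', hv'⟩ := hσ σ (w j)
      have hEq : v' = w j := by
        rw [← sub_eq_zero]
        apply hsep
        intro i
        obtain ⟨m, hm⟩ := hb i.2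
        rw [map_sub, sub_eq_zero]
        have h3 : (i.1 : Dual ℂ V) v' = σ ((i.1 : Dual ℂ V) (w j)) := by
          rw [← hm]; exact hv' m
        rw [h3, hw i j]
        split_ifs <;> simp
      rw [← hv' n, hEq]
    obtain ⟨r, hr⟩ := FA_IS_exists_rat_of_forall_ringAut_fixed _ hfix
    exact ⟨r, hr.symm⟩
  rw [eq_top_iff, ← w.span_eq]
  apply Submodule.span_mono
  rintro _ ⟨j, rfl⟩
  exact hrat j
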