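import Fermat.Agent.IntStr.Conj
import Fermat.Agent.IntStr.Descent
import Fermat.Agent.IntStr.BddDenom
import Fermat.Prelude.Thm_CuspForm_intLattice_fg

/-! `S_k(Γ₀(N))` is spanned by forms with integral `q`-expansions. -/

open UpperHalfPlane ModularForm Matrix.SpecialLinearGroup OnePoint CongruenceSubgroup Function
open scoped Manifold MatrixGroups ModularForm Real

namespace FA_IS

variable (N : ℕ) [NeZero N] (k : ℤ)

lemma cusp_nice {N : ℕ} {k : ℤ} (f : CuspForm (GG N) k) : Nice 1 f :=
  Nice.of_modularForm (Γ := GG N) (k := k) f one_pos (one_mem_strictPeriods_GG N)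

/-- the `q`-coefficient functionals -/
noncomputable def coeffL (n : ℕ) : CuspForm (GG N) k →ₗ[ℂ] ℂ where
  toFun f := (qExpansion 1 f).coeff n
  map_add' f g := by
    rw [CuspForm.coe_add, (cusp_nice f).qExpansion_add (cusp_nice g) one_pos, map_add]
  map_smul' c f := by
    rw [CuspForm.coe_smul, (cusp_nice f).qExpansion_smul one_pos]
    simp

lemma coeffL_apply (n : ℕ) (f : CuspForm (GG N) k) :
    coeffL N k n f = (qExpansion 1 f).coeff n := rfl

lemma coeffL_inj (f : CuspForm (GG N) k) (h : ∀ n, coeffL N k n f = 0) : f = 0 := by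
  have h0 : qExpansion 1 f = 0 := by
    ext n
    rw [map_zero]
    exact h n
  exact DFunLike.coe_injective ((cusp_nice f).eq_zero_of_qExpansion one_pos h0)

instance finiteDimensional_cusp : FiniteDimensional ℂ (CuspForm (GG N) k) := by
  let B := P2MW.S_CuspForm_intLattice_fg.W3WsD.sturmB N k
  let L : CuspForm (GG N) k →ₗ[ℂ] (Fin (B + 1) → ℂ) := LinearMap.pi fun i => coeffL N k i
  have hL : Function.Injective L := by
    intro f g hfg
    apply P2MW.S_CuspForm_intLattice_fg.W3WsD.trunc_injective N k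
    exact hfg
  exact FiniteDimensional.of_injective L hL

theorem exists_int_multiple (f : CuspForm (GG N) k)
    (hf : ∀ n, ∃ r : ℚ, (qExpansion 1 f).coeff n = (r : ℂ)) :
    ∃ D : ℕ, 0 < D ∧ ∀ n, ∃ m : ℤ, (D : ℂ) * (qExpansion 1 f).coeff n = (m : ℂ) := by
  have hN : N ≠ 0 := NeZero.ne N
  have h1 := one_mem_strictPeriods_GG N
  obtain ⟨c, M, u, hc0, hc, hu, hu0, hlead⟩ := A0_lead N
  obtain ⟨s, z, hs, hsum⟩ := II_exists_sum (mul_A0_mem_II N f rfl)
  have toN : ∀ {G : ℍ → ℂ}, Nice 1 G → Nice (N : ℝ) G := fun hG => by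
    simpa using hG.nat_mul N
  have expN : ∀ {G : ℍ → ℂ}, Nice 1 G →
      qExpansion N G = PowerSeries.expand N hN (qExpansion 1 G) := fun hG => by
    simpa using hG.qExpansion_nat_mul one_pos hN
  have hsN : ∀ G ∈ s, Nice 1 G := fun G hG => MFfun_nice h1 (hs G hG).1
  obtain ⟨D, hD, hint⟩ := FA_IS_bounded_denominators (qExpansion N f) (fun n => by
      rw [expN (cusp_nice f), PowerSeries.coeff_expand]
      split_ifs
      · exact hf _
      · exact ⟨0, by simp⟩) c hc0 hc M u hu hu0 s z (fun G => qExpansion N G)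
    (fun G hG n => by
      rw [expN (hsN G hG), PowerSeries.coeff_expand]
      split_ifs
      · exact (hs G hG).2 _
      · exact ⟨0, by simp⟩)
    (by
      rw [← hlead, ← (A0_nice N).qExpansion_mul (toN (cusp_nice f)) (NR_pos N), mul_comm, hsum,
        Nice.qExpansion_sum _ (fun G hG => (toN (hsN G hG)).smul _) (NR_pos N)]
      refine Finset.sum_congr rfl fun G hG => ?_
      rw [(toN (hsN G hG)).qExpansion_smul (NR_pos N), PowerSeries.smul_eq_C_mul])
  refine ⟨D, hD, fun n => ?_⟩
  have := hint (N * n)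
  rwa [expN (cusp_nice f), PowerSeries.coeff_expand_mul] at this

end FA_IS

open FA_IS in
/-- **Main theorem**: cusp forms of level `Γ₀(N)` and any weight are spanned by the forms with
integral `q`-expansion. -/
theorem FA_IS_hasIntegralStructure (N : ℕ) [NeZero N] (k : ℤ) :
    CuspForm.HasIntegralStructure N k := by
  unfold CuspForm.HasIntegralStructure
  have hdesc := FA_IS_span_rational_eq_top (coeffL N k) (coeffL_inj N k) (fun σ v => by
    obtain ⟨v', hv'⟩ := exists_conj N σ.toRingHom v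
    refine ⟨v', fun n => ?_⟩
    rw [coeffL_apply, hv', PowerSeries.coeff_map]
    rfl)
  rw [eq_top_iff, ← hdesc, Submodule.span_le]
  intro v hv
  obtain ⟨D, hD, hint⟩ := exists_int_multiple N k v hv
  have hDC : (D : ℂ) ≠ 0 := by exact_mod_cast hD.ne'
  have e : v = (D : ℂ)⁻¹ • ((D : ℂ) • v) := by rw [smul_smul, inv_mul_cancel₀ hDC, one_smul]
  rw [e]
  refine Submodule.smul_mem _ _ (Submodule.subset_span (Submodule.subset_span ?_))
  intro n
  obtain ⟨m, hm⟩ := hint n
  refine ⟨m, ?_⟩
  rw [← hm]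
  show (qExpansion 1 ⇑((D : ℂ) • v)).coeff n = _
  rw [CuspForm.coe_smul, (cusp_nice v).qExpansion_smul one_pos]
  simp
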