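import Fermat.Agent.IntStr.Aff
import Fermat.Prelude.Thm_UpperHalfPlane_qExpansion_prod
import Fermat.Prelude.Thm_UpperHalfPlane_qExpansion_coeff_nat_mul

/-! "Nice" functions on the upper half plane (periodic, holomorphic, bounded at `i∞`) and
their `q`-expansions. -/

open UpperHalfPlane ModularForm Matrix.SpecialLinearGroup OnePoint CongruenceSubgroup Function
open scoped Manifold MatrixGroups ModularForm Real

namespace FA_IS

local notation "𝕢" => Periodic.qParam

/-- periodic, holomorphic and bounded at `i∞`. -/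
structure Nice (h : ℝ) (F : ℍ → ℂ) : Prop where
  per : Function.Periodic (F ∘ ofComplex) h
  hol : MDiff F
  bdd : IsBoundedAtImInfty F

namespace Nice

variable {h : ℝ} {F G : ℍ → ℂ}

lemma analyticAt (hF : Nice h F) (hh : 0 < h) : AnalyticAt ℂ (cuspFunction h F) 0 :=
  analyticAt_cuspFunction_zero hh hF.per hF.hol hF.bdd

lemma add (hF : Nice h F) (hG : Nice h G) : Nice h (F + G) :=
  ⟨fun w => by
    have h1 := hF.per w
    have h2 := hG.per w
    simp only [comp_apply, Pi.add_apply] at h1 h2 ⊢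
    rw [h1, h2], hF.hol.add hG.hol, hF.bdd.add hG.bdd⟩

lemma mul (hF : Nice h F) (hG : Nice h G) : Nice h (F * G) :=
  ⟨fun w => by
    have h1 := hF.per w
    have h2 := hG.per w
    simp only [comp_apply, Pi.mul_apply] at h1 h2 ⊢
    rw [h1, h2], hF.hol.mul hG.hol, hF.bdd.mul hG.bdd⟩

lemma smul (hF : Nice h F) (c : ℂ) : Nice h (c • F) :=
  ⟨fun w => by
    have h1 := hF.per w
    simp only [comp_apply, Pi.smul_apply] at h1 ⊢
    rw [h1], hF.hol.const_smul c, hF.bdd.smul c⟩

lemma neg (hF : Nice h F) : Nice h (-F) := by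
  simpa using hF.smul (-1)

lemma sub (hF : Nice h F) (hG : Nice h G) : Nice h (F - G) := by
  simpa [sub_eq_add_neg] using hF.add hG.neg

lemma one : Nice h (1 : ℍ → ℂ) :=
  ⟨fun w => rfl, mdifferentiable_const, Filter.const_boundedAtFilter _ 1⟩

lemma zero : Nice h (0 : ℍ → ℂ) :=
  ⟨fun w => rfl, mdifferentiable_const, zero_form_isBoundedAtImInfty⟩

lemma pow (hF : Nice h F) (n : ℕ) : Nice h (F ^ n) := by
  induction n with
  | zero => simpa using one
  | succ n ih => rw [pow_succ]; exact ih.mul hF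

lemma prod {ι : Type*} (s : Finset ι) {g : ι → ℍ → ℂ} (hg : ∀ i ∈ s, Nice h (g i)) :
    Nice h (∏ i ∈ s, g i) := by
  classical
  induction s using Finset.induction_on with
  | empty => simpa using one
  | insert i t hi IH =>
    rw [Finset.prod_insert hi]
    exact (hg i (Finset.mem_insert_self _ _)).mul
      (IH fun j hj => hg j (Finset.mem_insert_of_mem hj))

lemma sum {ι : Type*} (s : Finset ι) {g : ι → ℍ → ℂ} (hg : ∀ i ∈ s, Nice h (g i)) :
    Nice h (∑ i ∈ s, g i) := by
  classical
  induction s using Finset.induction_on with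
  | empty => simpa using zero
  | insert i t hi IH =>
    rw [Finset.sum_insert hi]
    exact (hg i (Finset.mem_insert_self _ _)).add
      (IH fun j hj => hg j (Finset.mem_insert_of_mem hj))

lemma of_modularForm {Γ : Subgroup (GL (Fin 2) ℝ)} {k : ℤ} {Fk : Type*} [FunLike Fk ℍ ℂ]
    [ModularFormClass Fk Γ k] (f : Fk) (hh : 0 < h) (hΓ : h ∈ Γ.strictPeriods) : Nice h f :=
  have : Fact (IsCusp OnePoint.infty Γ) := ⟨Γ.isCusp_of_mem_strictPeriods hh hΓ⟩
  ⟨SlashInvariantFormClass.periodic_comp_ofComplex f hΓ, ModularFormClass.holo f,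
    ModularFormClass.bdd_at_infty f⟩

lemma qExpansion_add (hF : Nice h F) (hG : Nice h G) (hh : 0 < h) :
    qExpansion h (F + G) = qExpansion h F + qExpansion h G :=
  UpperHalfPlane.qExpansion_add (hF.analyticAt hh) (hG.analyticAt hh)

lemma qExpansion_sub (hF : Nice h F) (hG : Nice h G) (hh : 0 < h) :
    qExpansion h (F - G) = qExpansion h F - qExpansion h G :=
  UpperHalfPlane.qExpansion_sub (hF.analyticAt hh) (hG.analyticAt hh)

lemma qExpansion_mul (hF : Nice h F) (hG : Nice h G) (hh : 0 < h) :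
    qExpansion h (F * G) = qExpansion h F * qExpansion h G :=
  UpperHalfPlane.qExpansion_mul (hF.analyticAt hh) (hG.analyticAt hh)

lemma qExpansion_smul (hF : Nice h F) (hh : 0 < h) (c : ℂ) :
    qExpansion h (c • F) = c • qExpansion h F :=
  UpperHalfPlane.qExpansion_smul (hF.analyticAt hh) c

lemma qExpansion_pow (hF : Nice h F) (hh : 0 < h) (n : ℕ) :
    qExpansion h (F ^ n) = qExpansion h F ^ n := by
  induction n with
  | zero => simp [qExpansion_one]
  | succ n ih => rw [pow_succ, (hF.pow n).qExpansion_mul hF hh, ih, pow_succ]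

lemma qExpansion_prod {ι : Type*} (s : Finset ι) {g : ι → ℍ → ℂ} (hg : ∀ i ∈ s, Nice h (g i))
    (hh : 0 < h) : qExpansion h (∏ i ∈ s, g i) = ∏ i ∈ s, qExpansion h (g i) :=
  UpperHalfPlane.qExpansion_prod s fun i hi => (hg i hi).analyticAt hh

lemma qExpansion_sum {ι : Type*} (s : Finset ι) {g : ι → ℍ → ℂ} (hg : ∀ i ∈ s, Nice h (g i))
    (hh : 0 < h) : qExpansion h (∑ i ∈ s, g i) = ∑ i ∈ s, qExpansion h (g i) := by
  classical
  induction s using Finset.induction_on with
  | empty => simp [qExpansion_zero]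
  | insert i t hi IH =>
    rw [Finset.sum_insert hi, Finset.sum_insert hi,
      (hg i (Finset.mem_insert_self _ _)).qExpansion_add
        (Nice.sum t fun j hj => hg j (Finset.mem_insert_of_mem hj)) hh,
      IH fun j hj => hg j (Finset.mem_insert_of_mem hj)]

lemma eq_zero_of_qExpansion (hF : Nice h F) (hh : 0 < h) (h0 : qExpansion h F = 0) : F = 0 :=
  (qExpansion_eq_zero_iff hh hF.per hF.hol hF.bdd).mp h0

lemma hasSum (hF : Nice h F) (hh : 0 < h) (τ : ℍ) :
    HasSum (fun m : ℕ ↦ (qExpansion h F).coeff m • 𝕢 h τ ^ m) (F τ) :=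
  hasSum_qExpansion hh hF.per hF.hol hF.bdd τ

/-- change of period -/
lemma nat_mul (hF : Nice h F) (M : ℕ) : Nice (M * h) F :=
  ⟨by
    have := hF.per.nat_mul M
    simpa [Complex.ofReal_mul] using this, hF.hol, hF.bdd⟩

lemma qExpansion_nat_mul (hF : Nice h F) (hh : 0 < h) {M : ℕ} (hM : M ≠ 0) :
    qExpansion (M * h) F = PowerSeries.expand M hM (qExpansion h F) := by
  ext n
  rw [UpperHalfPlane.qExpansion_coeff_nat_mul hh hF.per hF.hol hF.bdd (Nat.pos_of_ne_zero hM),
    PowerSeries.coeff_expand]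

lemma tendsto (hF : Nice h F) (hh : 0 < h) :
    Filter.Tendsto F atImInfty (nhds ((qExpansion h F).coeff 0)) := by
  have h1 := (hF.analyticAt hh).continuousAt.tendsto.comp (qParam_tendsto_atImInfty hh)
  have h2 : (cuspFunction h F ∘ fun τ : ℍ ↦ 𝕢 h τ) = F := by
    funext τ
    simpa using eq_cuspFunction τ hh.ne' hF.per
  rw [h2] at h1
  simpa [qExpansion_coeff] using h1

end Nice

end FA_IS
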