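import Fermat.Agent.IntStr.Nice
import Fermat.Agent.IntStr.LevelOne

/-! The `ℂ`-span of the modular forms with integral `q`-expansions. -/

open UpperHalfPlane ModularForm Matrix.SpecialLinearGroup OnePoint CongruenceSubgroup Function
open scoped Manifold MatrixGroups ModularForm Real

namespace FA_IS

/-- span of integral forms -/
def II (𝒢 : Subgroup (GL (Fin 2) ℝ)) (m : ℤ) : Submodule ℂ (ℍ → ℂ) :=
  Submodule.span ℂ (FA_IS_intForms 𝒢 m)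

variable {𝒢 ℋ : Subgroup (GL (Fin 2) ℝ)} [𝒢.HasDetOne] [ℋ.HasDetOne]

lemma II_le_MFfun (m : ℤ) : II 𝒢 m ≤ MFfun 𝒢 m :=
  Submodule.span_le.mpr fun _ hG => hG.1

lemma MFfun_nice (h1 : (1 : ℝ) ∈ 𝒢.strictPeriods) {m : ℤ} {F : ℍ → ℂ} (hF : F ∈ MFfun 𝒢 m) :
    Nice 1 F := by
  obtain ⟨g, rfl⟩ := hF
  exact Nice.of_modularForm (Γ := 𝒢) (k := m) g one_pos h1

lemma II_nice (h1 : (1 : ℝ) ∈ 𝒢.strictPeriods) {m : ℤ} {F : ℍ → ℂ} (hF : F ∈ II 𝒢 m) :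
    Nice 1 F := MFfun_nice h1 (II_le_MFfun m hF)

lemma intForms_mono (h : 𝒢 ≤ ℋ) (m : ℤ) : FA_IS_intForms ℋ m ⊆ FA_IS_intForms 𝒢 m :=
  fun _ hG => ⟨MFfun_mono h hG.1, hG.2⟩

lemma II_mono (h : 𝒢 ≤ ℋ) (m : ℤ) : II ℋ m ≤ II 𝒢 m :=
  Submodule.span_mono (intForms_mono h m)

lemma intForms_mul (h1 : (1 : ℝ) ∈ 𝒢.strictPeriods) {m₁ m₂ m : ℤ} (hm : m = m₁ + m₂)
    {F G : ℍ → ℂ} (hF : F ∈ FA_IS_intForms 𝒢 m₁) (hG : G ∈ FA_IS_intForms 𝒢 m₂) :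
    F * G ∈ FA_IS_intForms 𝒢 m := by
  refine ⟨MFfun_mul hm hF.1 hG.1, ?_⟩
  rw [(MFfun_nice h1 hF.1).qExpansion_mul (MFfun_nice h1 hG.1) one_pos]
  have hF' : qExpansion 1 F ∈ coeffsIn ZZ := fun n => mem_ZZ.mpr (hF.2 n)
  have hG' : qExpansion 1 G ∈ coeffsIn ZZ := fun n => mem_ZZ.mpr (hG.2 n)
  exact fun n => mem_ZZ.mp (Subring.mul_mem _ hF' hG' n)

lemma II_mul (h1 : (1 : ℝ) ∈ 𝒢.strictPeriods) {m₁ m₂ m : ℤ} (hm : m = m₁ + m₂)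
    {F G : ℍ → ℂ} (hF : F ∈ II 𝒢 m₁) (hG : G ∈ II 𝒢 m₂) : F * G ∈ II 𝒢 m := by
  have h := Submodule.mul_mem_mul hF hG
  rw [II, II, Submodule.span_mul_span] at h
  refine Submodule.span_mono ?_ h
  rintro _ ⟨F, hF, G, hG, rfl⟩
  exact intForms_mul h1 hm hF hG

lemma one_mem_intForms : (1 : ℍ → ℂ) ∈ FA_IS_intForms 𝒢 0 := by
  refine ⟨⟨1, rfl⟩, fun n => ?_⟩
  rw [qExpansion_one, PowerSeries.coeff_one]
  split_ifs
  · exact ⟨1, by simp⟩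
  · exact ⟨0, by simp⟩

lemma II_pow (h1 : (1 : ℝ) ∈ 𝒢.strictPeriods) {w : ℤ} {F : ℍ → ℂ} (hF : F ∈ II 𝒢 w) (n : ℕ)
    {m : ℤ} (hm : m = w * n) : F ^ n ∈ II 𝒢 m := by
  induction n generalizing m with
  | zero =>
    have : m = 0 := by simpa using hm
    subst this
    rw [pow_zero]
    exact Submodule.subset_span one_mem_intForms
  | succ n ih =>
    rw [pow_succ]
    exact II_mul h1 (by rw [hm]; push_cast; ring) (ih rfl) hF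

/-- Galois conjugates inside the span of integral forms. -/
lemma II_conj (h1 : (1 : ℝ) ∈ 𝒢.strictPeriods) (σ : ℂ →+* ℂ) {m : ℤ} {F : ℍ → ℂ}
    (hF : F ∈ II 𝒢 m) :
    ∃ F' ∈ II 𝒢 m, qExpansion 1 F' = (qExpansion 1 F).map σ := by
  induction hF using Submodule.span_induction with
  | mem G hG =>
    refine ⟨G, Submodule.subset_span hG, ?_⟩
    ext n
    obtain ⟨c, hc⟩ := hG.2 n
    rw [PowerSeries.coeff_map, hc, map_intCast]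
  | zero => exact ⟨0, Submodule.zero_mem _, by simp [qExpansion_zero]⟩
  | add F G hF hG ihF ihG =>
    obtain ⟨F', hF', eF⟩ := ihF
    obtain ⟨G', hG', eG⟩ := ihG
    refine ⟨F' + G', Submodule.add_mem _ hF' hG', ?_⟩
    rw [(II_nice h1 hF').qExpansion_add (II_nice h1 hG') one_pos,
      (II_nice h1 hF).qExpansion_add (II_nice h1 hG) one_pos, eF, eG, map_add]
  | smul z F hF ihF =>
    obtain ⟨F', hF', eF⟩ := ihF
    refine ⟨σ z • F', Submodule.smul_mem _ _ hF', ?_⟩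
    rw [(II_nice h1 hF').qExpansion_smul one_pos, (II_nice h1 hF).qExpansion_smul one_pos, eF]
    ext n
    simp

lemma levelOne_mem_II {m : ℤ} {F : ℍ → ℂ} (hF : F ∈ MFfun 𝒮ℒ m) : F ∈ II 𝒮ℒ m := by
  obtain ⟨g, rfl⟩ := hF
  exact FA_IS_levelOne_mem_span m g

omit [𝒢.HasDetOne] in
/-- explicit finite decompositions -/
lemma II_exists_sum {m : ℤ} {F : ℍ → ℂ} (hF : F ∈ II 𝒢 m) :
    ∃ (s : Finset (ℍ → ℂ)) (z : (ℍ → ℂ) → ℂ), (∀ G ∈ s, G ∈ FA_IS_intForms 𝒢 m) ∧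
      F = ∑ G ∈ s, z G • G := by
  obtain ⟨z, s, hs, -, h⟩ := (Submodule.mem_span_iff_exists_finset_subset).mp hF
  exact ⟨s, z, fun G hG => hs hG, h.symm⟩

end FA_IS
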