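import Fermat.Agent.IntStr.Lead
import Fermat.Agent.IntStr.IntSpan

/-! `T = Δ(N·)`, `A₀ = ∏_{q ≠ q₀} (T - T_q)` and the interpolation formula. -/

open UpperHalfPlane ModularForm Matrix.SpecialLinearGroup OnePoint CongruenceSubgroup Function
open scoped Manifold MatrixGroups ModularForm Real

namespace FA_IS

variable (N : ℕ) [NeZero N]

/-- `T = Δ(N·)` -/
noncomputable def TT : ModularForm (GG N) 12 := lvl N CuspForm.discriminant

/-- the index of `Γ₀(N)` -/
noncomputable abbrev mu : ℕ := Fintype.card (Q (GG N))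

lemma mu_pos : 0 < mu N := Fintype.card_pos_iff.mpr ⟨q0 (GG N)⟩

/-- `A₀ = ∏_{q ≠ q₀} (T - T_q)` -/
noncomputable def A0 : ℍ → ℂ :=
  ∏ q ∈ Finset.univ.erase (q0 (GG N)), (tr (TT N) (q0 (GG N)) - tr (TT N) q)

lemma NR_pos : (0 : ℝ) < N := by exact_mod_cast Nat.pos_of_ne_zero (NeZero.ne N)

lemma nice_disc : Nice 1 (⇑CuspForm.discriminant) := nice_levelOne 12 CuspForm.discriminant

lemma tr_TT_nice (q : Q (GG N)) : Nice (N : ℝ) (tr (TT N) q) := by
  obtain ⟨a, d, b, ha, hd, had, -, h⟩ := tr_lvl N CuspForm.discriminant q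
  rw [TT, h]
  exact (compAff_nice nice_disc ha hd had b).smul _

lemma A0_nice : Nice (N : ℝ) (A0 N) :=
  Nice.prod _ fun q _ => (tr_TT_nice N _).sub (tr_TT_nice N q)

lemma zetaAff_one_zero : zetaAff 1 0 = 1 := by simp [zetaAff]

lemma qExpansion_TT :
    qExpansion N (TT N) = PowerSeries.expand (N ^ 2) (pow_ne_zero 2 (NeZero.ne N))
      (PowerSeries.rescale (zetaAff 1 0) (qExpansion 1 ModularForm.discriminant)) := by
  have h := qExpansion_compAff nice_disc (Nat.pos_of_ne_zero (NeZero.ne N)) one_pos (mul_one N) 0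
  exact h

lemma A0_lead : Lead (qExpansion N (A0 N)) := by
  rw [A0, Nice.qExpansion_prod _ (fun q _ => (tr_TT_nice N _).sub (tr_TT_nice N q)) (NR_pos N)]
  refine Lead.prod _ fun q hq => ?_
  rw [(tr_TT_nice N _).qExpansion_sub (tr_TT_nice N q) (NR_pos N), tr_q0, qExpansion_TT]
  obtain ⟨a, d, b, ha, hd, had, hd1, h⟩ := tr_lvl N CuspForm.discriminant q
  have hq' : q ≠ q0 (GG N) := (Finset.mem_erase.mp hq).1
  have hd1' : d ≠ 1 := fun h => hq' (hd1.mp h)
  rw [TT, h, (compAff_nice nice_disc ha hd had b).qExpansion_smul (NR_pos N),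
    qExpansion_compAff nice_disc ha hd had b]
  exact lead_factor ha hd had hd1' b _ _ _ zetaAff_one_zero

lemma A0_ne_zero : A0 N ≠ 0 := by
  intro h
  apply (A0_lead N).ne_zero
  rw [h, qExpansion_zero]

lemma TT_nice_one : Nice 1 (TT N) :=
  Nice.of_modularForm (Γ := GG N) (k := 12) (TT N) one_pos (one_mem_strictPeriods_GG N)

lemma TT_mem_intForms : ⇑(TT N) ∈ FA_IS_intForms (GG N) 12 := by
  refine ⟨⟨TT N, rfl⟩, fun n => ?_⟩
  have h1 := (TT_nice_one N).qExpansion_nat_mul one_pos (NeZero.ne N)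
  rw [mul_one, qExpansion_TT] at h1
  have h2 := congrArg (PowerSeries.coeff (N * n)) h1
  rw [PowerSeries.coeff_expand_mul, PowerSeries.coeff_expand] at h2
  rw [← h2]
  split_ifs
  · rw [zetaAff_one_zero, PowerSeries.rescale_one]
    exact FA_IS_discriminant_qExpansion_int _
  · exact ⟨0, by simp⟩

lemma TT_mem_II : ⇑(TT N) ∈ II (GG N) 12 := Submodule.subset_span (TT_mem_intForms N)

/-- the interpolation formula: `f A₀` lies in the span of the integral forms. -/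
theorem mul_A0_mem_II {F : Type*} [FunLike F ℍ ℂ] {k : ℤ} [ModularFormClass F (GG N) k] (f : F)
    {m : ℤ} (hm : m = k + 12 * ((mu N : ℤ) - 1)) : ⇑f * A0 N ∈ II (GG N) m := by
  have h := interp (tr f) (tr (TT N)) (q0 (GG N))
  rw [tr_q0] at h
  have h' : ⇑f * A0 N = ∑ i ∈ Finset.range (mu N),
      (-1) ^ i * beta (tr f) (tr (TT N)) i * (tr (TT N) (q0 (GG N))) ^ (mu N - 1 - i) := h
  rw [h', tr_q0]
  refine Submodule.sum_mem _ fun i hi => ?_
  have hi' := Finset.mem_range.mp hi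
  have e : ((-1 : ℍ → ℂ) ^ i * beta (tr f) (tr (TT N)) i * (⇑(TT N)) ^ (mu N - 1 - i)) =
      ((-1 : ℂ) ^ i) • (beta (tr f) (tr (TT N)) i * (⇑(TT N)) ^ (mu N - 1 - i)) := by
    funext τ
    simp [mul_assoc]
  rw [e]
  refine Submodule.smul_mem _ _ (II_mul (one_mem_strictPeriods_GG N) (m₁ := k + 12 * i)
    (m₂ := 12 * ((mu N - 1 - i : ℕ) : ℤ)) ?_ ?_ ?_)
  · rw [hm]
    have : ((mu N - 1 - i : ℕ) : ℤ) = (mu N : ℤ) - 1 - i := by omega
    rw [this]
    ring
  · exact II_mono (GG_le N) _ (levelOne_mem_II (beta_mem_MFfun f (TT N) i rfl))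
  · exact II_pow (one_mem_strictPeriods_GG N) (TT_mem_II N) _ rfl

lemma A0_mem_II : A0 N ∈ II (GG N) (12 * ((mu N : ℤ) - 1)) := by
  have h := mul_A0_mem_II N (1 : ModularForm (GG N) 0) (m := 12 * ((mu N : ℤ) - 1)) (by ring)
  simpa using h

end FA_IS
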