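import Fermat.Agent.IntStr.Basic

/-! The forms `τ ↦ f ((aτ+b)/d)` and the translates of `τ ↦ f (Nτ)`. -/

open UpperHalfPlane ModularForm Matrix.SpecialLinearGroup OnePoint CongruenceSubgroup
open scoped Manifold MatrixGroups ModularForm

namespace FA_IS

/-- the point `(aτ+b)/d` of the upper half plane -/
noncomputable def affPt (a d : ℕ) (b : ℤ) (τ : ℍ) : ℍ := ofComplex (((a : ℂ) * τ + b) / d)

lemma affPt_im_pos {a d : ℕ} (ha : 0 < a) (hd : 0 < d) (b : ℤ) (τ : ℍ) :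
    0 < ((((a : ℂ) * τ + b) / d)).im := by
  have h : ((((a : ℂ) * τ + b) / d)).im = a * τ.im / d := by
    rw [Complex.div_natCast_im]
    simp
  rw [h]
  have := τ.im_pos
  positivity

lemma coe_affPt {a d : ℕ} (ha : 0 < a) (hd : 0 < d) (b : ℤ) (τ : ℍ) :
    (affPt a d b τ : ℂ) = ((a : ℂ) * τ + b) / d := by
  rw [affPt, ofComplex_apply_of_im_pos (affPt_im_pos ha hd b τ)]

lemma im_affPt {a d : ℕ} (ha : 0 < a) (hd : 0 < d) (b : ℤ) (τ : ℍ) :
    (affPt a d b τ).im = a * τ.im / d := by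
  have : (affPt a d b τ).im = ((affPt a d b τ : ℍ) : ℂ).im := rfl
  rw [this, coe_affPt ha hd, Complex.div_natCast_im]
  simp

/-- `τ ↦ F ((aτ+b)/d)` -/
noncomputable def compAff (F : ℍ → ℂ) (a d : ℕ) (b : ℤ) : ℍ → ℂ := fun τ => F (affPt a d b τ)

/-- arithmetic input: Hermite normal form of `diag(N,1) γ`. -/
lemma hermite (N : ℕ) [NeZero N] (x y z t : ℤ) (hdet : x * t - y * z = 1) :
    ∃ (a d : ℕ) (b p r s u : ℤ), 0 < a ∧ 0 < d ∧ a * d = N ∧ (d = 1 ↔ (N : ℤ) ∣ z) ∧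
      p * u - r * s = 1 ∧ p * a = N * x ∧ s * a = z ∧ s * b + u * d = t ∧ p * b + r * d = N * y := by
  have hN : 0 < N := Nat.pos_of_ne_zero (NeZero.ne N)
  set a : ℕ := Int.gcd (N : ℤ) z with ha
  have ha0 : 0 < a := Int.gcd_pos_of_ne_zero_left _ (by exact_mod_cast hN.ne')
  obtain ⟨d', hd'⟩ : (a : ℤ) ∣ (N : ℤ) := Int.gcd_dvd_left _ _
  obtain ⟨z', hz'⟩ : (a : ℤ) ∣ z := Int.gcd_dvd_right _ _
  have hd'pos : 0 < d' := by
    have h1 : (0 : ℤ) < a * d' := by rw [← hd']; exact_mod_cast hN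
    exact (mul_pos_iff_of_pos_left (by exact_mod_cast ha0)).mp h1
  lift d' to ℕ using hd'pos.le
  have hcop1 : IsCoprime (d' : ℤ) z' := by
    have h := Int.isCoprime_iff_gcd_eq_one.mpr
      (Int.gcd_div_gcd_div_gcd (i := (N : ℤ)) (j := z) (by rw [← ha]; exact ha0))
    rw [← ha] at h
    have e1 : (N : ℤ) / (a : ℤ) = d' := by
      rw [hd']; exact Int.mul_ediv_cancel_left _ (by exact_mod_cast ha0.ne')
    have e2 : z / (a : ℤ) = z' := by
      rw [hz']; exact Int.mul_ediv_cancel_left _ (by exact_mod_cast ha0.ne')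
    rwa [e1, e2] at h
  have hcop2 : IsCoprime x z' := ⟨t, -y * a, by rw [hz'] at hdet; linarith⟩
  obtain ⟨A, B, hAB⟩ : IsCoprime ((d' : ℤ) * x) z' := hcop1.mul_left hcop2
  have hNad : (N : ℤ) = a * d' := hd'
  refine ⟨a, d', A * N * y + B * t, d' * x, -B, z', A, ha0, by exact_mod_cast hd'pos,
    by exact_mod_cast hNad.symm, ?_, by linarith, by rw [hNad]; ring, by rw [hz']; ring, ?_, ?_⟩
  · constructor
    · intro h1
      rw [hNad, h1, hz']
      simp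
    · intro h
      have h2 : (N : ℤ) ∣ (a : ℤ) := by
        rw [ha]; exact Int.dvd_coe_gcd dvd_rfl h
      have h3 : N ∣ a := by exact_mod_cast h2
      have h4 : N ≤ a := Nat.le_of_dvd ha0 h3
      have h5 : a * d' = N := by exact_mod_cast hNad.symm
      have hd1 : 0 < d' := by exact_mod_cast hd'pos
      nlinarith
  · -- s b + u d = t
    have e : z' * (A * N * y + B * t) + A * d' = t * (A * (d' * x) + B * z') - A * d' * (x * t - y * z - 1) := by
      rw [hNad, hz']; ring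
    rw [e, hAB, hdet]; ring
  · have e : d' * x * (A * N * y + B * t) + -B * d' =
        N * y * (A * (d' * x) + B * z') + B * d' * (x * t - y * z - 1) := by
      rw [hNad, hz']; ring
    rw [e, hAB, hdet]; ring

end FA_IS

namespace FA_IS

lemma denom_SL (g : SL(2, ℤ)) (z : ℂ) :
    denom g z = ((g 1 0 : ℤ) : ℂ) * z + ((g 1 1 : ℤ) : ℂ) := by
  simp [denom]

theorem compAff_slash {Fk : Type*} [FunLike Fk ℍ ℂ] {k : ℤ} [SlashInvariantFormClass Fk 𝒮ℒ k]
    (f : Fk) (N : ℕ) [NeZero N] (γ : SL(2, ℤ)) :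
    ∃ (a d : ℕ) (b : ℤ), 0 < a ∧ 0 < d ∧ a * d = N ∧ (d = 1 ↔ γ ∈ Gamma0 N) ∧
      compAff f N 1 0 ∣[k] γ = ((d : ℂ) ^ k)⁻¹ • compAff f a d b := by
  have hN : 0 < N := Nat.pos_of_ne_zero (NeZero.ne N)
  have hdet : γ 0 0 * γ 1 1 - γ 0 1 * γ 1 0 = 1 := by
    have := γ.det_coe
    rwa [Matrix.det_fin_two] at this
  obtain ⟨a, d, b, p, r, s, u, ha, hd, had, hd1, hdet', h1, h2, h3, h4⟩ :=
    hermite N (γ 0 0) (γ 0 1) (γ 1 0) (γ 1 1) hdet
  refine ⟨a, d, b, ha, hd, had, ?_, ?_⟩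
  · rw [hd1, Gamma0_mem, ZMod.intCast_zmod_eq_zero_iff_dvd]
  ext τ
  let γ' : SL(2, ℤ) := ⟨!![p, r; s, u], by rw [Matrix.det_fin_two_of]; exact hdet'⟩
  have hdC : (d : ℂ) ≠ 0 := by exact_mod_cast hd.ne'
  have hden : denom γ τ ≠ 0 := denom_ne_zero _ τ
  have hdenγ : denom γ τ = (γ 1 0 : ℂ) * τ + (γ 1 1 : ℂ) := denom_SL γ τ
  have hden' : denom γ' (affPt a d b τ) = denom γ τ / d := by
    have e : denom γ' (affPt a d b τ) = (s : ℂ) * (affPt a d b τ : ℂ) + (u : ℂ) :=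
      denom_SL γ' _
    rw [e, coe_affPt ha hd, hdenγ, ← h2, ← h3]
    push_cast
    field_simp
    ring
  have hpt : affPt N 1 0 (γ • τ) = γ' • affPt a d b τ := by
    apply UpperHalfPlane.ext
    have hden2 : (s : ℂ) * (affPt a d b τ : ℂ) + (u : ℂ) ≠ 0 := by
      have e : denom γ' (affPt a d b τ) = (s : ℂ) * (affPt a d b τ : ℂ) + (u : ℂ) :=
        denom_SL γ' _
      rw [← e]
      exact denom_ne_zero _ _
    rw [coe_affPt hN one_pos, coe_specialLinearGroup_apply, coe_specialLinearGroup_apply]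
    simp only [γ', algebraMap_int_eq, Int.coe_castRingHom, Complex.ofReal_intCast,
      Matrix.SpecialLinearGroup.coe_mk, Matrix.of_apply, Matrix.cons_val', Matrix.cons_val_zero,
      Matrix.cons_val_one, Matrix.cons_val_fin_one]
    rw [hdenγ] at hden
    rw [coe_affPt ha hd] at hden2 ⊢
    have h1' : (p : ℂ) * a = N * (γ 0 0 : ℂ) := by exact_mod_cast h1
    have h2' : (s : ℂ) * a = (γ 1 0 : ℂ) := by exact_mod_cast h2
    have h3' : (s : ℂ) * b + u * d = (γ 1 1 : ℂ) := by exact_mod_cast h3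
    have h4' : (p : ℂ) * b + r * d = N * (γ 0 1 : ℂ) := by exact_mod_cast h4
    have e1 : (p : ℂ) * (((a : ℂ) * τ + b) / d) + r = (N * ((γ 0 0 : ℂ) * τ + (γ 0 1 : ℂ))) / d := by
      field_simp
      linear_combination (τ : ℂ) * h1' + h4'
    have e2 : (s : ℂ) * (((a : ℂ) * τ + b) / d) + u = ((γ 1 0 : ℂ) * τ + (γ 1 1 : ℂ)) / d := by
      field_simp
      linear_combination (τ : ℂ) * h2' + h3'
    rw [e1, e2]
    field_simp
    simp
  have hf : f (γ' • affPt a d b τ) = denom γ' (affPt a d b τ) ^ k * f (affPt a d b τ) :=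
    SlashInvariantForm.slash_action_eqn'' f (⟨γ', rfl⟩ : mapGL ℝ γ' ∈ 𝒮ℒ) (affPt a d b τ)
  rw [SL_slash_apply, compAff, hpt, hf, hden', Pi.smul_apply, compAff, smul_eq_mul, div_zpow,
    zpow_neg]
  field_simp

end FA_IS
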