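import Fermat.Agent.IntStr.Nice

/-! `q`-expansions of `τ ↦ F ((aτ+b)/d)`. -/

open UpperHalfPlane ModularForm Matrix.SpecialLinearGroup OnePoint CongruenceSubgroup Function
open scoped Manifold MatrixGroups ModularForm Real

namespace FA_IS

local notation "𝕢" => Periodic.qParam

lemma tendsto_affPt {a d : ℕ} (ha : 0 < a) (hd : 0 < d) (b : ℤ) :
    Filter.Tendsto (affPt a d b) atImInfty atImInfty := by
  rw [atImInfty, Filter.tendsto_comap_iff]
  have h : (im ∘ affPt a d b) = fun τ : ℍ => (a / d : ℝ) * τ.im := by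
    funext τ
    simp only [comp_apply, im_affPt ha hd]
    ring
  rw [h]
  exact Filter.Tendsto.const_mul_atTop (by positivity) Filter.tendsto_comap

lemma compAff_comp_ofComplex (F : ℍ → ℂ) (a d : ℕ) (b : ℤ) {w : ℂ} (hw : 0 < w.im) :
    (compAff F a d b ∘ ofComplex) w = (F ∘ ofComplex) (((a : ℂ) * w + b) / d) := by
  simp only [comp_apply, compAff, affPt, ofComplex_apply_of_im_pos hw]

lemma compAff_nice {F : ℍ → ℂ} (hF : Nice 1 F) {a d N : ℕ} (ha : 0 < a) (hd : 0 < d)
    (had : a * d = N) (b : ℤ) : Nice (N : ℝ) (compAff F a d b) := by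
  have hdC : (d : ℂ) ≠ 0 := by exact_mod_cast hd.ne'
  refine ⟨?_, ?_, ?_⟩
  · intro w
    by_cases hw : 0 < w.im
    · have hw' : 0 < (w + ((N : ℝ) : ℂ)).im := by simpa using hw
      rw [compAff_comp_ofComplex F a d b hw', compAff_comp_ofComplex F a d b hw]
      have e : ((a : ℂ) * (w + ((N : ℝ) : ℂ)) + b) / d =
          ((a : ℂ) * w + b) / d + ((a ^ 2 : ℕ) : ℂ) * ((1 : ℝ) : ℂ) := by
        rw [← had]
        push_cast
        field_simp
        ring
      rw [e]
      exact (hF.per.nat_mul (a ^ 2)) _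
    · have hw1 : w.im ≤ 0 := not_lt.mp hw
      have hw' : (w + ((N : ℝ) : ℂ)).im ≤ 0 := by simpa using hw1
      simp only [comp_apply]
      rw [ofComplex_apply_eq_of_im_nonpos hw' hw1]
  · rw [UpperHalfPlane.mdifferentiable_iff]
    have h1 := UpperHalfPlane.mdifferentiable_iff.mp hF.hol
    have h2 : DifferentiableOn ℂ (fun w : ℂ => ((a : ℂ) * w + b) / d) {z | 0 < z.im} := by
      fun_prop
    have h3 : Set.MapsTo (fun w : ℂ => ((a : ℂ) * w + b) / d) {z | 0 < z.im} {z | 0 < z.im} := by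
      intro w hw
      exact affPt_im_pos ha hd b ⟨w, hw⟩
    refine (h1.comp h2 h3).congr ?_
    intro w hw
    exact compAff_comp_ofComplex F a d b hw
  · exact hF.bdd.comp_tendsto (tendsto_affPt ha hd b)

lemma compAff_zeroAt {F : ℍ → ℂ} (hF : IsZeroAtImInfty F) {a d : ℕ} (ha : 0 < a) (hd : 0 < d)
    (b : ℤ) : IsZeroAtImInfty (compAff F a d b) :=
  Filter.Tendsto.comp hF (tendsto_affPt ha hd b)

/-- the root of unity `exp (2π i b / d)` -/
noncomputable def zetaAff (d : ℕ) (b : ℤ) : ℂ := Complex.exp (2 * π * Complex.I * b / d)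

lemma zetaAff_pow (d : ℕ) (hd : 0 < d) (b : ℤ) : zetaAff d b ^ d = 1 := by
  have hdC : (d : ℂ) ≠ 0 := by exact_mod_cast hd.ne'
  rw [zetaAff, ← Complex.exp_nat_mul]
  have : (d : ℂ) * (2 * π * Complex.I * b / d) = b * (2 * π * Complex.I) := by
    field_simp
  rw [this, Complex.exp_int_mul_two_pi_mul_I]

lemma qParam_affPt {a d N : ℕ} (ha : 0 < a) (hd : 0 < d) (had : a * d = N) (b : ℤ) (τ : ℍ) :
    𝕢 1 (affPt a d b τ) = zetaAff d b * 𝕢 N τ ^ (a ^ 2) := by
  have hdC : (d : ℂ) ≠ 0 := by exact_mod_cast hd.ne'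
  have haC : (a : ℂ) ≠ 0 := by exact_mod_cast ha.ne'
  rw [Periodic.qParam, Periodic.qParam, coe_affPt ha hd, zetaAff, ← Complex.exp_nat_mul,
    ← Complex.exp_add]
  congr 1
  rw [← had]
  push_cast
  field_simp
  ring

lemma coeff_unique {h : ℝ} {f : ℍ → ℂ} {c : ℕ → ℂ} (hh : 0 < h)
    (hfanalytic : AnalyticAt ℂ (cuspFunction h f) 0)
    (hf : ∀ τ : ℍ, HasSum (fun m ↦ c m • 𝕢 h τ ^ m) (f τ)) (m : ℕ) :
    c m = (qExpansion h f).coeff m := by
  have h1 := (hasFPowerSeriesOnBall_cuspFunction hh hfanalytic hf).hasFPowerSeriesAt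
  have h2 := hfanalytic.hasFPowerSeriesAt
  have h3 := congr_arg (FormalMultilinearSeries.coeff · m) (h1.eq_formalMultilinearSeries h2)
  simp only [FormalMultilinearSeries.coeff_ofScalars] at h3
  rw [h3, qExpansion_coeff]
  ring

lemma qExpansion_compAff_aux {F : ℍ → ℂ} (hF : Nice 1 F) {a d N : ℕ} (ha : 0 < a) (hd : 0 < d)
    (had : a * d = N) (b : ℤ) (P : PowerSeries ℂ)
    (hP : ∀ n, PowerSeries.coeff n P = if a ^ 2 ∣ n then
      zetaAff d b ^ (n / a ^ 2) * PowerSeries.coeff (n / a ^ 2) (qExpansion 1 F) else 0) :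
    qExpansion N (compAff F a d b) = P := by
  have hN : 0 < N := by rw [← had]; positivity
  have hNR : (0 : ℝ) < N := by exact_mod_cast hN
  have ha2 : 0 < a ^ 2 := by positivity
  have key : ∀ τ : ℍ, HasSum (fun n : ℕ => PowerSeries.coeff n P • 𝕢 (N : ℝ) τ ^ n)
      (compAff F a d b τ) := by
    intro τ
    have h1 := hF.hasSum one_pos (affPt a d b τ)
    have hinj : Function.Injective (fun m : ℕ => a ^ 2 * m) := fun x y hxy =>
      Nat.eq_of_mul_eq_mul_left ha2 hxy
    rw [← hinj.hasSum_iff]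
    · have e0 : compAff F a d b τ = F (affPt a d b τ) := rfl
      rw [e0]
      convert h1 using 1
      funext m
      simp only [comp_apply, hP, dvd_mul_right, if_true,
        Nat.mul_div_cancel_left _ ha2, smul_eq_mul]
      rw [qParam_affPt ha hd had b τ, mul_pow, ← pow_mul]
      ring
    · intro n hn
      have : ¬ a ^ 2 ∣ n := by
        rintro ⟨m, rfl⟩
        exact hn ⟨m, rfl⟩
      simp [hP, this]
  have hana := (compAff_nice hF ha hd had b).analyticAt hNR
  ext n
  exact (coeff_unique hNR hana key n).symm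

theorem qExpansion_compAff {F : ℍ → ℂ} (hF : Nice 1 F) {a d N : ℕ} (ha : 0 < a) (hd : 0 < d)
    (had : a * d = N) (b : ℤ) :
    qExpansion N (compAff F a d b) =
      PowerSeries.expand (a ^ 2) (pow_ne_zero 2 ha.ne')
        (PowerSeries.rescale (zetaAff d b) (qExpansion 1 F)) := by
  apply qExpansion_compAff_aux hF ha hd had b
  intro n
  rw [PowerSeries.coeff_expand]
  split_ifs
  · rw [PowerSeries.coeff_rescale]
  · rfl

end FA_IS
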