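import Mathlib

/-!
# IS-C6: analytic division from an integral relation

If `A, B, c i` are holomorphic on the upper half plane, `A ≠ 0`, and `B / A` satisfies a monic
polynomial relation with holomorphic coefficients, then `B / A` is holomorphic.
-/

open UpperHalfPlane ModularForm Filter Topology
open scoped Manifold MatrixGroups

namespace FA_IS_AD

/-- lower bound of the order of a finite sum -/
lemma le_analyticOrderAt_sum {ι : Type*} (s : Finset ι) (f : ι → ℂ → ℂ) (z : ℂ) (k : ℕ∞)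
    (h : ∀ i ∈ s, k ≤ analyticOrderAt (f i) z) :
    k ≤ analyticOrderAt (∑ i ∈ s, f i) z := by
  classical
  induction s using Finset.induction_on with
  | empty =>
    have : analyticOrderAt (0 : ℂ → ℂ) z = ⊤ := by
      rw [analyticOrderAt_eq_top]; simp
    simp [this]
  | insert a s ha ih =>
    rw [Finset.sum_insert ha]
    refine le_trans (le_min (h a (Finset.mem_insert_self a s)) (ih fun i hi => h i (Finset.mem_insert_of_mem hi))) le_analyticOrderAt_add

/-- the local order inequality -/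
lemma order_le (μ : ℕ) (hμ : 0 < μ) (a b : ℂ → ℂ) (c : ℕ → ℂ → ℂ) (z : ℂ)
    (ha : AnalyticAt ℂ a z) (hb : AnalyticAt ℂ b z) (hc : ∀ i, AnalyticAt ℂ (c i) z)
    (hrel : ∀ᶠ w in 𝓝 z, (b ^ μ + ∑ i ∈ Finset.range μ, c i * b ^ i * a ^ (μ - i)) w = 0) :
    analyticOrderAt a z ≤ analyticOrderAt b z := by
  by_contra hlt
  rw [not_le] at hlt
  obtain ⟨n, hn⟩ := ENat.ne_top_iff_exists.mp (ne_top_of_lt hlt)
  have h1 : analyticOrderAt (b ^ μ) z = ((μ * n : ℕ) : ℕ∞) := by
    rw [analyticOrderAt_pow hb, ← hn]; simp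
  have hn1 : ((n + 1 : ℕ) : ℕ∞) ≤ analyticOrderAt a z := by
    rw [← hn] at hlt
    exact_mod_cast Order.add_one_le_of_lt hlt
  have h2 : ((μ * n + 1 : ℕ) : ℕ∞) ≤
      analyticOrderAt (∑ i ∈ Finset.range μ, c i * b ^ i * a ^ (μ - i)) z := by
    apply le_analyticOrderAt_sum
    intro i hi
    have hi' : i < μ := Finset.mem_range.mp hi
    rw [analyticOrderAt_mul ((hc i).mul (hb.pow i)) (ha.pow _),
      analyticOrderAt_mul (hc i) (hb.pow i), analyticOrderAt_pow hb, analyticOrderAt_pow ha, ← hn]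
    have h3 : (((μ - i) * (n + 1) : ℕ) : ℕ∞) ≤ (μ - i) • analyticOrderAt a z := by
      rw [nsmul_eq_mul]
      push_cast
      gcongr
      exact_mod_cast hn1
    have h4 : ((μ * n + 1 : ℕ) : ℕ∞) ≤ ((i * n + (μ - i) * (n + 1) : ℕ) : ℕ∞) := by
      have : μ * n + 1 ≤ i * n + (μ - i) * (n + 1) := by
        obtain ⟨d, rfl⟩ : ∃ d, μ = i + (d + 1) := ⟨μ - i - 1, by omega⟩
        have : i + (d + 1) - i = d + 1 := by omega
        rw [this]
        nlinarith
      exact_mod_cast this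
    refine h4.trans ?_
    calc ((i * n + (μ - i) * (n + 1) : ℕ) : ℕ∞)
        = (i • (n : ℕ∞)) + (((μ - i) * (n + 1) : ℕ) : ℕ∞) := by push_cast; simp
      _ ≤ (i • (n : ℕ∞)) + (μ - i) • analyticOrderAt a z := by gcongr
      _ ≤ analyticOrderAt (c i) z + i • (n : ℕ∞) + (μ - i) • analyticOrderAt a z := by
          gcongr
          exact le_add_self
  have h5 : analyticOrderAt (b ^ μ) z =
      analyticOrderAt (∑ i ∈ Finset.range μ, c i * b ^ i * a ^ (μ - i)) z := by
    rw [← analyticOrderAt_neg (f := ∑ i ∈ Finset.range μ, c i * b ^ i * a ^ (μ - i))]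
    apply analyticOrderAt_congr
    filter_upwards [hrel] with w hw
    simp only [Pi.add_apply, Pi.neg_apply] at hw ⊢
    linear_combination hw
  rw [← h5, h1] at h2
  have : μ * n + 1 ≤ μ * n := by exact_mod_cast h2
  omega

/-- local division -/
lemma exists_local_div (a b : ℂ → ℂ) (z : ℂ)
    (ha : AnalyticAt ℂ a z) (hb : AnalyticAt ℂ b z) (hne : analyticOrderAt a z ≠ ⊤)
    (hle : analyticOrderAt a z ≤ analyticOrderAt b z) :
    ∃ g : ℂ → ℂ, AnalyticAt ℂ g z ∧ ∀ᶠ w in 𝓝 z, a w * g w = b w := by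
  obtain ⟨m, hm⟩ := ENat.ne_top_iff_exists.mp hne
  obtain ⟨a1, ha1, ha1z, haeq⟩ := (ha.analyticOrderAt_eq_natCast (n := m)).mp hm.symm
  rw [← hm] at hle
  obtain ⟨b1, hb1, hbeq⟩ := (natCast_le_analyticOrderAt hb).mp hle
  refine ⟨fun w => b1 w / a1 w, hb1.div ha1 ha1z, ?_⟩
  filter_upwards [haeq, hbeq, ha1.continuousAt.eventually_ne ha1z] with w h1 h2 h3
  rw [h1, h2]
  simp only [smul_eq_mul]
  field_simp

/-- gluing local quotients -/
lemma exists_global_div (U : Set ℂ) (hU : IsOpen U) (a b : ℂ → ℂ)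
    (ha : ∀ z ∈ U, AnalyticAt ℂ a z) (hne : ∀ z ∈ U, analyticOrderAt a z ≠ ⊤)
    (hloc : ∀ z ∈ U, ∃ g : ℂ → ℂ, AnalyticAt ℂ g z ∧ ∀ᶠ w in 𝓝 z, a w * g w = b w) :
    ∃ H : ℂ → ℂ, (∀ z ∈ U, AnalyticAt ℂ H z) ∧ ∀ z ∈ U, a z * H z = b z := by
  classical
  choose! g hg hag using hloc
  refine ⟨fun z => g z z, ?_, fun z hz => (hag z hz).self_of_nhds⟩
  intro z hz
  refine (hg z hz).congr ?_
  have h1 : ∀ᶠ w in 𝓝 z, AnalyticAt ℂ (g z) w := (hg z hz).eventually_analyticAt
  have h2 : ∀ᶠ w in 𝓝 z, ∀ᶠ v in 𝓝 w, a v * g z v = b v := (hag z hz).eventually_nhds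
  filter_upwards [h1, h2, hU.mem_nhds hz] with w hw1 hw2 hwU
  -- `g z w = g w w`
  have hane : ∀ᶠ v in 𝓝[≠] w, a v ≠ 0 := by
    rcases (ha w hwU).eventually_eq_zero_or_eventually_ne_zero with h | h
    · exact absurd (analyticOrderAt_eq_top.mpr h) (hne w hwU)
    · exact h
  have heq : ∀ᶠ v in 𝓝[≠] w, g z v = g w v := by
    filter_upwards [hane, hw2.filter_mono nhdsWithin_le_nhds,
      (hag w hwU).filter_mono nhdsWithin_le_nhds] with v hv1 hv2 hv3
    exact mul_left_cancel₀ hv1 (hv2.trans hv3.symm)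
  exact tendsto_nhds_unique_of_eventuallyEq (l := 𝓝[≠] w)
    hw1.continuousAt.continuousWithinAt (hg w hwU).continuousAt.continuousWithinAt heq

end FA_IS_AD

open FA_IS_AD in
/-- C6 -/
theorem FA_IS_exists_mdiff_div (μ : ℕ) (hμ : 0 < μ) (A B : ℍ → ℂ) (c : ℕ → ℍ → ℂ)
    (hA : MDiff A) (hB : MDiff B) (hc : ∀ i, MDiff (c i)) (hA0 : A ≠ 0)
    (hrel : B ^ μ + ∑ i ∈ Finset.range μ, c i * B ^ i * A ^ (μ - i) = 0) :
    ∃ H : ℍ → ℂ, MDiff H ∧ A * H = B := by
  set U : Set ℂ := {z | 0 < z.im} with hUdef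
  have hU : IsOpen U := isOpen_upperHalfPlaneSet
  have an : ∀ f : ℍ → ℂ, MDiff f → AnalyticOnNhd ℂ (f ∘ ofComplex) U := fun f hf =>
    (UpperHalfPlane.mdifferentiable_iff.mp hf).analyticOnNhd hU
  have hUc : IsPreconnected U := (convex_halfSpace_im_gt 0).isPreconnected
  have hne : ∀ z ∈ U, analyticOrderAt (A ∘ ofComplex) z ≠ ⊤ := by
    intro z hz htop
    rw [analyticOrderAt_eq_top] at htop
    have := (an A hA).eqOn_zero_of_preconnected_of_eventuallyEq_zero hUc hz htop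
    apply hA0
    funext τ
    have h := this τ.im_pos
    simpa [ofComplex_apply] using h
  have hle : ∀ z ∈ U, analyticOrderAt (A ∘ ofComplex) z ≤ analyticOrderAt (B ∘ ofComplex) z := by
    intro z hz
    apply order_le μ hμ (A ∘ ofComplex) (B ∘ ofComplex) (fun i => c i ∘ ofComplex) z
      (an A hA z hz) (an B hB z hz) (fun i => an (c i) (hc i) z hz)
    refine Eventually.of_forall fun w => ?_
    have := congrFun hrel (ofComplex w)
    simpa [Finset.sum_apply] using this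
  obtain ⟨H, hH, hAH⟩ := exists_global_div U hU (A ∘ ofComplex) (B ∘ ofComplex)
    (fun z hz => an A hA z hz) hne
    (fun z hz => exists_local_div _ _ z (an A hA z hz) (an B hB z hz) (hne z hz) (hle z hz))
  refine ⟨fun τ => H τ, ?_, ?_⟩
  · rw [UpperHalfPlane.mdifferentiable_iff]
    intro z hz
    have : DifferentiableWithinAt ℂ H U z := (hH z hz).differentiableAt.differentiableWithinAt
    refine this.congr (fun w hw => ?_) ?_
    · simp [Function.comp, ofComplex_apply_of_im_pos hw]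
    · simp [Function.comp, ofComplex_apply_of_im_pos hz]
  · funext τ
    have := hAH τ τ.im_pos
    simpa [ofComplex_apply] using this
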