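import Mathlib

/-! Basic tools for the integral-structure theorem: constructors of modular forms out of
`SL(2,ℤ)`-data, power series with coefficients in a subring. -/

open UpperHalfPlane ModularForm Matrix.SpecialLinearGroup OnePoint
open scoped Manifold MatrixGroups ModularForm

namespace FA_IS

/-- Build a modular form for an arithmetic subgroup out of `SL(2,ℤ)`-boundedness data. -/
noncomputable def mkMF (𝒢 : Subgroup (GL (Fin 2) ℝ)) [𝒢.IsArithmetic] (m : ℤ) (F : ℍ → ℂ)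
    (hinv : ∀ g ∈ 𝒢, F ∣[m] g = F) (hhol : MDiff F)
    (hbdd : ∀ γ : SL(2, ℤ), IsBoundedAtImInfty (F ∣[m] γ)) : ModularForm 𝒢 m where
  toFun := F
  slash_action_eq' := hinv
  holo' := hhol
  bdd_at_cusps' {c} hc := by
    rw [Subgroup.IsArithmetic.isCusp_iff_isCusp_SL2Z] at hc
    rw [isBoundedAt_iff_forall_SL2Z hc]
    intro γ _
    exact hbdd γ

@[simp] lemma coe_mkMF (𝒢 : Subgroup (GL (Fin 2) ℝ)) [𝒢.IsArithmetic] (m : ℤ) (F : ℍ → ℂ)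
    (hinv : ∀ g ∈ 𝒢, F ∣[m] g = F) (hhol : MDiff F)
    (hbdd : ∀ γ : SL(2, ℤ), IsBoundedAtImInfty (F ∣[m] γ)) :
    ⇑(mkMF 𝒢 m F hinv hhol hbdd) = F := rfl

/-- Build a cusp form for an arithmetic subgroup out of `SL(2,ℤ)`-vanishing data. -/
noncomputable def mkCF (𝒢 : Subgroup (GL (Fin 2) ℝ)) [𝒢.IsArithmetic] (m : ℤ) (F : ℍ → ℂ)
    (hinv : ∀ g ∈ 𝒢, F ∣[m] g = F) (hhol : MDiff F)
    (hzero : ∀ γ : SL(2, ℤ), IsZeroAtImInfty (F ∣[m] γ)) : CuspForm 𝒢 m where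
  toFun := F
  slash_action_eq' := hinv
  holo' := hhol
  zero_at_cusps' {c} hc := by
    rw [Subgroup.IsArithmetic.isCusp_iff_isCusp_SL2Z] at hc
    rw [isZeroAt_iff_forall_SL2Z hc]
    intro γ _
    exact hzero γ

@[simp] lemma coe_mkCF (𝒢 : Subgroup (GL (Fin 2) ℝ)) [𝒢.IsArithmetic] (m : ℤ) (F : ℍ → ℂ)
    (hinv : ∀ g ∈ 𝒢, F ∣[m] g = F) (hhol : MDiff F)
    (hzero : ∀ γ : SL(2, ℤ), IsZeroAtImInfty (F ∣[m] γ)) :
    ⇑(mkCF 𝒢 m F hinv hhol hzero) = F := rfl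

/-- The functions on `ℍ` underlying modular forms of level `𝒢` and weight `m`. -/
def MFfun (𝒢 : Subgroup (GL (Fin 2) ℝ)) [𝒢.HasDetOne] (m : ℤ) : Submodule ℂ (ℍ → ℂ) where
  carrier := {F | ∃ g : ModularForm 𝒢 m, ⇑g = F}
  add_mem' := by
    rintro _ _ ⟨f, rfl⟩ ⟨g, rfl⟩
    exact ⟨f + g, rfl⟩
  zero_mem' := ⟨0, rfl⟩
  smul_mem' := by
    rintro c _ ⟨f, rfl⟩
    exact ⟨c • f, rfl⟩

lemma mem_MFfun {𝒢 : Subgroup (GL (Fin 2) ℝ)} [𝒢.HasDetOne] {m : ℤ} {F : ℍ → ℂ} :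
    F ∈ MFfun 𝒢 m ↔ ∃ g : ModularForm 𝒢 m, ⇑g = F := Iff.rfl

lemma coe_mem_MFfun {𝒢 : Subgroup (GL (Fin 2) ℝ)} [𝒢.HasDetOne] {m : ℤ} (g : ModularForm 𝒢 m) :
    ⇑g ∈ MFfun 𝒢 m := ⟨g, rfl⟩

lemma MFfun_mul {𝒢 : Subgroup (GL (Fin 2) ℝ)} [𝒢.HasDetOne] {m₁ m₂ m : ℤ} (hm : m = m₁ + m₂)
    {F G : ℍ → ℂ} (hF : F ∈ MFfun 𝒢 m₁) (hG : G ∈ MFfun 𝒢 m₂) : F * G ∈ MFfun 𝒢 m := by
  subst hm
  obtain ⟨f, rfl⟩ := hF
  obtain ⟨g, rfl⟩ := hG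
  exact ⟨f.mul g, rfl⟩

lemma MFfun_mono {𝒢 ℋ : Subgroup (GL (Fin 2) ℝ)} [𝒢.HasDetOne] [ℋ.HasDetOne] (h : 𝒢 ≤ ℋ) {m : ℤ}
    {F : ℍ → ℂ} (hF : F ∈ MFfun ℋ m) : F ∈ MFfun 𝒢 m := by
  obtain ⟨f, rfl⟩ := hF
  exact ⟨{ toFun := f
           slash_action_eq' := fun γ hγ => f.slash_action_eq' γ (h hγ)
           holo' := f.holo'
           bdd_at_cusps' := fun hc => f.bdd_at_cusps' (hc.mono h) }, rfl⟩

/-- Power series over `ℂ` all of whose coefficients lie in a given subring. -/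
def coeffsIn (R : Subring ℂ) : Subring (PowerSeries ℂ) where
  carrier := {P | ∀ n, PowerSeries.coeff n P ∈ R}
  mul_mem' := by
    intro P Q hP hQ n
    rw [PowerSeries.coeff_mul]
    exact Subring.sum_mem _ fun p _ => R.mul_mem (hP _) (hQ _)
  one_mem' := by
    intro n
    rw [PowerSeries.coeff_one]
    split_ifs
    · exact R.one_mem
    · exact R.zero_mem
  add_mem' := by
    intro P Q hP hQ n
    rw [map_add]
    exact R.add_mem (hP _) (hQ _)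
  zero_mem' := by
    intro n
    rw [map_zero]
    exact R.zero_mem
  neg_mem' := by
    intro P hP n
    rw [map_neg]
    exact R.neg_mem (hP _)

lemma mem_coeffsIn {R : Subring ℂ} {P : PowerSeries ℂ} :
    P ∈ coeffsIn R ↔ ∀ n, PowerSeries.coeff n P ∈ R := Iff.rfl

/-- the subring `ℤ ⊆ ℂ` -/
abbrev ZZ : Subring ℂ := (Int.castRingHom ℂ).range

lemma mem_ZZ {z : ℂ} : z ∈ ZZ ↔ ∃ c : ℤ, z = (c : ℂ) := by
  constructor
  · rintro ⟨c, rfl⟩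
    exact ⟨c, rfl⟩
  · rintro ⟨c, rfl⟩
    exact ⟨c, rfl⟩

end FA_IS
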