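import Fermat.Agent.IntStr.Sym

/-! Elementary symmetric functions of the translates: the norm polynomial. -/

open UpperHalfPlane ModularForm Matrix.SpecialLinearGroup OnePoint SlashInvariantForm
open scoped Manifold MatrixGroups ModularForm

namespace FA_IS

section alg

open Finset

variable {ι R : Type*} [Fintype ι] [DecidableEq ι] [CommRing R]

/-- elementary symmetric functions -/
def esym (t : ι → R) (j : ℕ) : R := ∑ S : Finset ι, if S.card = j then ∏ q ∈ S, t q else 0

lemma esym_zero (t : ι → R) : esym t 0 = 1 := by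
  unfold esym
  rw [Finset.sum_eq_single ∅]
  · simp
  · intro S _ hS
    rw [if_neg]
    simpa using hS
  · simp

theorem esym_rel (t : ι → R) (q0 : ι) :
    ∑ j ∈ range (Fintype.card ι + 1), (-1) ^ j * esym t j * (t q0) ^ (Fintype.card ι - j) = 0 := by
  have h0 : ∏ q ∈ (Finset.univ : Finset ι), (t q0 - t q) = 0 :=
    Finset.prod_eq_zero (Finset.mem_univ q0) (sub_self _)
  rw [prod_sub_eq_sum, Finset.powerset_univ, Finset.card_univ] at h0
  rw [← h0]
  simp only [esym, Finset.mul_sum, Finset.sum_mul]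
  rw [Finset.sum_comm]
  refine Finset.sum_congr rfl fun S _ => ?_
  rw [Finset.sum_eq_single S.card]
  · simp
  · intro j _ hj
    simp [Ne.symm hj]
  · intro h
    exact absurd (Finset.mem_range.mpr (Nat.lt_succ_of_le (Finset.card_le_univ S))) h

/-- the monic relation satisfied by `t q0`. -/
theorem esym_monic (t : ι → R) (q0 : ι) :
    (t q0) ^ (Fintype.card ι) + ∑ i ∈ range (Fintype.card ι),
      ((-1) ^ (Fintype.card ι - i) * esym t (Fintype.card ι - i)) * (t q0) ^ i = 0 := by
  have h := esym_rel t q0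
  rw [Finset.sum_range_succ', ← Finset.sum_range_reflect] at h
  simp only [pow_zero, esym_zero, one_mul, Nat.sub_zero] at h
  rw [add_comm, ← h]
  congr 1
  refine Finset.sum_congr rfl fun i hi => ?_
  have hi' := Finset.mem_range.mp hi
  have e1 : Fintype.card ι - 1 - i + 1 = Fintype.card ι - i := by omega
  have e2 : Fintype.card ι - (Fintype.card ι - i) = i := by omega
  rw [e1, e2]

end alg

variable {𝒢 : Subgroup (GL (Fin 2) ℝ)} [𝒢.IsArithmetic]
variable {G : Type*} [FunLike G ℍ ℂ] {w : ℤ} [ModularFormClass G 𝒢 w]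

lemma esym_slash (T : G) (i : ℕ) (γ : SL(2, ℤ)) :
    esym (tr T) i ∣[w * i] γ = esym (tr (𝒢 := 𝒢) T) i := by
  unfold esym
  rw [SlashAction.sum_slash]
  conv_rhs => rw [← Equiv.sum_comp
    (Equiv.finsetCongr (MulAction.toPerm ((⟨mapGL ℝ γ, γ, rfl⟩ : 𝒮ℒ)⁻¹)))]
  refine Finset.sum_congr rfl fun S _ => ?_
  simp only [Equiv.finsetCongr_apply,
    Finset.card_map, Finset.prod_map, Equiv.coe_toEmbedding, MulAction.toPerm_apply]
  split_ifs with h
  · subst h
    rw [prod_slash_SL]
    simp only [tr_slash]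
  · exact SlashAction.zero_slash (w * (i : ℤ)) γ

lemma esym_mdiff (T : G) (i : ℕ) : MDiff (esym (tr (𝒢 := 𝒢) T) i) := by
  unfold esym
  refine MDifferentiable.sum fun p _ => ?_
  split_ifs
  · exact MDifferentiable.prod fun q _ => tr_mdiff T q
  · exact mdifferentiable_const

section bounds

variable {ι : Type} [Fintype ι] [DecidableEq ι] {t : ι → ℍ → ℂ}

lemma esym_bdd (ht : ∀ q, IsBoundedAtImInfty (t q)) (i : ℕ) :
    IsBoundedAtImInfty (esym t i) := by
  unfold esym
  refine sum_bdd _ fun p _ => ?_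
  split_ifs
  · exact prod_bdd ht _
  · exact zero_form_isBoundedAtImInfty

lemma esym_zeroAt (ht : ∀ q, IsZeroAtImInfty (t q))
    {i : ℕ} (hi : 0 < i) : IsZeroAtImInfty (esym t i) := by
  unfold esym
  refine sum_zeroAt _ fun p _ => ?_
  split_ifs with h
  · obtain ⟨q, hq⟩ : p.Nonempty := Finset.card_pos.mp (h ▸ hi)
    rw [← Finset.mul_prod_erase _ _ hq]
    exact (ht q).mul_boundedAtFilter (prod_bdd (fun q => (ht q).isBoundedAtImInfty) _)
  · exact Filter.zero_zeroAtFilter _

end bounds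

theorem esym_mem_MFfun (T : G) (i : ℕ) {m : ℤ} (hm : m = w * i) :
    esym (tr (𝒢 := 𝒢) T) i ∈ MFfun 𝒮ℒ m := by
  subst hm
  refine ⟨mkMF 𝒮ℒ _ (esym (tr (𝒢 := 𝒢) T) i) ?_ (esym_mdiff T i) ?_, rfl⟩
  · rintro _ ⟨γ, rfl⟩
    exact esym_slash T i γ
  · intro γ
    rw [esym_slash]
    exact esym_bdd (tr_bdd T) i

end FA_IS
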