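import Mathlib

/-! Roots of monic polynomials with small coefficients are small. -/

namespace FA_IS

open Finset Filter Topology

lemma norm_lt_of_monic {μ : ℕ} (hμ : 0 < μ) {x : ℂ} {c : ℕ → ℂ} {ε : ℝ} (hε : 0 < ε) (hε1 : ε ≤ 1)
    (hc : ∀ i < μ, ‖c i‖ < ε ^ μ / μ) (hrel : x ^ μ + ∑ i ∈ range μ, c i * x ^ i = 0) :
    ‖x‖ < ε := by
  by_contra hx
  push Not at hx
  have hμR : (0 : ℝ) < μ := by exact_mod_cast hμ
  have h1 : ‖x‖ ^ μ = ‖∑ i ∈ range μ, c i * x ^ i‖ := by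
    rw [← norm_pow, eq_neg_of_add_eq_zero_left hrel, norm_neg]
  have h2 : ‖∑ i ∈ range μ, c i * x ^ i‖ ≤ ∑ i ∈ range μ, ‖c i‖ * ‖x‖ ^ i := by
    refine (norm_sum_le _ _).trans (le_of_eq ?_)
    simp [norm_mul, norm_pow]
  have hxpos : 0 < ‖x‖ := lt_of_lt_of_le hε hx
  have h3 : ∑ i ∈ range μ, ‖c i‖ * ‖x‖ ^ i < ∑ i ∈ range μ, ‖x‖ ^ μ / μ := by
    apply Finset.sum_lt_sum_of_nonempty (by simpa using hμ.ne')
    intro i hi
    have hi' := mem_range.mp hi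
    have h5 : ε ^ μ * ‖x‖ ^ i ≤ ‖x‖ ^ μ := by
      calc ε ^ μ * ‖x‖ ^ i ≤ ε ^ (μ - i) * ‖x‖ ^ i := by
            gcongr ?_ * _
            exact pow_le_pow_of_le_one hε.le hε1 (Nat.sub_le _ _)
        _ ≤ ‖x‖ ^ (μ - i) * ‖x‖ ^ i := by gcongr
        _ = ‖x‖ ^ μ := by rw [← pow_add, Nat.sub_add_cancel hi'.le]
    calc ‖c i‖ * ‖x‖ ^ i < ε ^ μ / μ * ‖x‖ ^ i := by
          gcongr
          exact hc i hi'
      _ = (ε ^ μ * ‖x‖ ^ i) / μ := by ring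
      _ ≤ ‖x‖ ^ μ / μ := by gcongr
  have h4 : ∑ i ∈ range μ, ‖x‖ ^ μ / μ = ‖x‖ ^ μ := by
    rw [sum_const, card_range, nsmul_eq_mul]
    field_simp
  linarith

lemma tendsto_zero_of_monic {α : Type*} {l : Filter α} {μ : ℕ} (hμ : 0 < μ) {x : α → ℂ}
    {c : ℕ → α → ℂ} (hc : ∀ i < μ, Tendsto (c i) l (𝓝 0))
    (hrel : ∀ a, x a ^ μ + ∑ i ∈ range μ, c i a * x a ^ i = 0) : Tendsto x l (𝓝 0) := by
  rw [Metric.tendsto_nhds]
  intro ε hε
  have hμR : (0 : ℝ) < μ := by exact_mod_cast hμ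
  set ε' := min ε 1 with hε'def
  have hε' : 0 < ε' := lt_min hε one_pos
  have hev : ∀ᶠ a in l, ∀ i ∈ range μ, ‖c i a‖ < ε' ^ μ / μ := by
    rw [Filter.eventually_all_finset]
    intro i hi
    have := (Metric.tendsto_nhds.mp (hc i (mem_range.mp hi))) (ε' ^ μ / μ) (by positivity)
    simpa [dist_zero_right] using this
  filter_upwards [hev] with a ha
  rw [dist_zero_right]
  exact (norm_lt_of_monic hμ hε' (min_le_right _ _) (fun i hi => ha i (mem_range.mpr hi))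
    (hrel a)).trans_le (min_le_left _ _)

end FA_IS
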