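import Fermat.Agent.IntStr.A0
import Fermat.Agent.IntStr.Esym
import Fermat.Agent.IntStr.RootSmall
import Fermat.Agent.IntStr.AnalyticDiv

/-! Galois conjugates of cusp forms of level `Γ₀(N)`. -/

open UpperHalfPlane ModularForm Matrix.SpecialLinearGroup OnePoint CongruenceSubgroup Function
open scoped Manifold MatrixGroups ModularForm Real

namespace FA_IS

section helpers

variable {h : ℝ} {A B : ℍ → ℂ} {c : ℕ → ℍ → ℂ}

lemma nice_rel (hA : Nice h A) (hB : Nice h B) (hc : ∀ i, Nice h (c i)) (μ : ℕ) :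
    Nice h (B ^ μ + ∑ i ∈ Finset.range μ, c i * B ^ i * A ^ (μ - i)) :=
  (hB.pow μ).add (Nice.sum _ fun i _ => ((hc i).mul (hB.pow i)).mul (hA.pow _))

lemma qExp_rel (hh : 0 < h) (hA : Nice h A) (hB : Nice h B) (hc : ∀ i, Nice h (c i)) (μ : ℕ) :
    qExpansion h (B ^ μ + ∑ i ∈ Finset.range μ, c i * B ^ i * A ^ (μ - i)) =
      qExpansion h B ^ μ + ∑ i ∈ Finset.range μ,
        qExpansion h (c i) * qExpansion h B ^ i * qExpansion h A ^ (μ - i) := by
  rw [(hB.pow μ).qExpansion_add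
    (Nice.sum _ fun i _ => ((hc i).mul (hB.pow i)).mul (hA.pow _)) hh, hB.qExpansion_pow hh,
    Nice.qExpansion_sum _ (fun i _ => ((hc i).mul (hB.pow i)).mul (hA.pow _)) hh]
  congr 1
  refine Finset.sum_congr rfl fun i _ => ?_
  rw [((hc i).mul (hB.pow i)).qExpansion_mul (hA.pow _) hh, (hc i).qExpansion_mul (hB.pow i) hh,
    hB.qExpansion_pow hh, hA.qExpansion_pow hh]

lemma pow_slash_SL (F : ℍ → ℂ) (w : ℤ) (n : ℕ) (γ : SL(2, ℤ)) :
    (F ^ n) ∣[w * n] γ = (F ∣[w] γ) ^ n := by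
  have h := prod_slash_SL (w := w) (Finset.range n) (fun _ => F) γ
  simpa using h

lemma rel_slash {μ : ℕ} {H : ℍ → ℂ} {k : ℤ} (γ : SL(2, ℤ))
    (hc : ∀ i < μ, c i ∣[k * ((μ - i : ℕ) : ℤ)] γ = c i)
    (hrel : H ^ μ + ∑ i ∈ Finset.range μ, c i * H ^ i = 0) :
    (H ∣[k] γ) ^ μ + ∑ i ∈ Finset.range μ, c i * (H ∣[k] γ) ^ i = 0 := by
  have h := congrArg (fun F : ℍ → ℂ => F ∣[k * μ] γ) hrel
  simp only [SlashAction.add_slash, SlashAction.sum_slash, SlashAction.zero_slash] at h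
  rw [pow_slash_SL] at h
  rw [← h]
  congr 1
  refine Finset.sum_congr rfl fun i hi => ?_
  have hi' := Finset.mem_range.mp hi
  have e : k * (μ : ℤ) = k * ((μ - i : ℕ) : ℤ) + k * i := by
    have : ((μ - i : ℕ) : ℤ) = (μ : ℤ) - i := by omega
    rw [this]
    ring
  rw [e, mul_slash_SL2, hc i hi', pow_slash_SL]

lemma map_injective_aux (σ : ℂ →+* ℂ) {P : PowerSeries ℂ} (h : P.map σ = 0) : P = 0 := by
  ext n
  have := congrArg (PowerSeries.coeff n) h
  rw [PowerSeries.coeff_map, map_zero] at this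
  rw [map_zero]
  exact (map_eq_zero σ).mp this

lemma isZeroAt_of_coeff_zero (hh : 0 < h) (hA : Nice h A) (h0 : (qExpansion h A).coeff 0 = 0) :
    IsZeroAtImInfty A := by
  have := hA.tendsto hh
  rwa [h0] at this

lemma coeff_zero_of_isZeroAt (hh : 0 < h) (hA : Nice h A) (h0 : IsZeroAtImInfty A) :
    (qExpansion h A).coeff 0 = 0 :=
  tendsto_nhds_unique (hA.tendsto hh) h0

end helpers

variable (N : ℕ) [NeZero N]

/-- the coefficients of the norm polynomial of `f`. -/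
noncomputable def normCoeff {k : ℤ} (f : CuspForm (GG N) k) (i : ℕ) : ℍ → ℂ :=
  (-1) ^ (mu N - i) * esym (tr f) (mu N - i)

lemma normCoeff_eq_smul {k : ℤ} (f : CuspForm (GG N) k) (i : ℕ) :
    normCoeff N f i = ((-1 : ℂ) ^ (mu N - i)) • esym (tr f) (mu N - i) := by
  funext τ
  simp [normCoeff]

lemma normCoeff_mem {k : ℤ} (f : CuspForm (GG N) k) (i : ℕ) :
    normCoeff N f i ∈ II 𝒮ℒ (k * ((mu N - i : ℕ) : ℤ)) := by
  rw [normCoeff_eq_smul]
  exact Submodule.smul_mem _ _ (levelOne_mem_II (esym_mem_MFfun f _ rfl))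

lemma normCoeff_zeroAt {k : ℤ} (f : CuspForm (GG N) k) {i : ℕ} (hi : i < mu N) :
    IsZeroAtImInfty (normCoeff N f i) := by
  rw [normCoeff_eq_smul]
  exact (zeroAtImInftySubmodule ℂ).smul_mem _
    (esym_zeroAt (tr_zeroAt f) (Nat.sub_pos_of_lt hi))

lemma normCoeff_rel {k : ℤ} (f : CuspForm (GG N) k) :
    (⇑f) ^ (mu N) + ∑ i ∈ Finset.range (mu N), normCoeff N f i * (⇑f) ^ i = 0 := by
  have h := esym_monic (tr f) (q0 (GG N))
  rw [tr_q0] at h
  exact h

theorem exists_conj (σ : ℂ →+* ℂ) {k : ℤ} (f : CuspForm (GG N) k) :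
    ∃ f' : CuspForm (GG N) k, qExpansion 1 f' = (qExpansion 1 f).map σ := by
  have h1 := one_mem_strictPeriods_GG N
  have h1' : (1 : ℝ) ∈ (𝒮ℒ : Subgroup (GL (Fin 2) ℝ)).strictPeriods := one_mem_strictPeriods_SL
  have hμ := mu_pos N
  set μ := mu N with hμdef
  have hA := A0_mem_II N
  have hB := mul_A0_mem_II N f rfl
  set A := A0 N with hAdef
  set B := ⇑f * A with hBdef
  have hc := normCoeff_mem N f
  set c := normCoeff N f with hcdef
  have hfN : Nice 1 f := Nice.of_modularForm (Γ := GG N) (k := k) f one_pos h1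
  have hAN := II_nice h1 hA
  have hBN := II_nice h1 hB
  have hcN : ∀ i, Nice 1 (c i) := fun i => II_nice h1' (hc i)
  -- the homogeneous relation
  have hrelB : B ^ μ + ∑ i ∈ Finset.range μ, c i * B ^ i * A ^ (μ - i) = 0 := by
    have h := normCoeff_rel N f
    have e : B ^ μ + ∑ i ∈ Finset.range μ, c i * B ^ i * A ^ (μ - i) =
        A ^ μ * ((⇑f) ^ μ + ∑ i ∈ Finset.range μ, c i * (⇑f) ^ i) := by
      rw [mul_add, Finset.mul_sum, hBdef, mul_pow]
      congr 1
      · ring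
      · refine Finset.sum_congr rfl fun i hi => ?_
        have hi' := Finset.mem_range.mp hi
        have : A ^ μ = A ^ i * A ^ (μ - i) := by rw [← pow_add, Nat.add_sub_cancel' hi'.le]
        rw [this, mul_pow]
        ring
    rw [e, h, mul_zero]
  -- conjugates
  obtain ⟨A', hA', eA⟩ := II_conj h1 σ hA
  obtain ⟨B', hB', eB⟩ := II_conj h1 σ hB
  choose c' hc' ec using fun i => II_conj h1' σ (hc i)
  have hAN' := II_nice h1 hA'
  have hBN' := II_nice h1 hB'
  have hcN' : ∀ i, Nice 1 (c' i) := fun i => II_nice h1' (hc' i)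
  have hrelB' : B' ^ μ + ∑ i ∈ Finset.range μ, c' i * B' ^ i * A' ^ (μ - i) = 0 := by
    apply (nice_rel hAN' hBN' hcN' μ).eq_zero_of_qExpansion one_pos
    rw [qExp_rel one_pos hAN' hBN' hcN' μ, eA, eB]
    simp only [ec]
    have h := congrArg (PowerSeries.map σ) (qExp_rel one_pos hAN hBN hcN μ)
    rw [hrelB, qExpansion_zero, map_zero] at h
    rw [h]
    simp only [map_add, map_sum, map_mul, map_pow]
  have hA0 : A' ≠ 0 := by
    intro h0
    rw [h0, qExpansion_zero] at eA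
    exact A0_ne_zero N (hAN.eq_zero_of_qExpansion one_pos (map_injective_aux σ eA.symm))
  obtain ⟨H, hH, hAH⟩ := FA_IS_exists_mdiff_div μ hμ A' B' c' hAN'.hol hBN'.hol
    (fun i => (hcN' i).hol) hA0 hrelB'
  -- the monic relation for `H`
  have hrelH : H ^ μ + ∑ i ∈ Finset.range μ, c' i * H ^ i = 0 := by
    have e : A' ^ μ * (H ^ μ + ∑ i ∈ Finset.range μ, c' i * H ^ i) = 0 := by
      rw [← hrelB', ← hAH, mul_add, Finset.mul_sum, mul_pow]
      congr 1
      refine Finset.sum_congr rfl fun i hi => ?_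
      have hi' := Finset.mem_range.mp hi
      have : A' ^ μ = A' ^ i * A' ^ (μ - i) := by rw [← pow_add, Nat.add_sub_cancel' hi'.le]
      rw [this, mul_pow]
      ring
    have hm1 : MDiff (A' ^ μ) := (hAN'.pow μ).hol
    have hm2 : MDiff (H ^ μ + ∑ i ∈ Finset.range μ, c' i * H ^ i) :=
      (hH.pow μ).add (MDifferentiable.sum fun i _ => (hcN' i).hol.mul (hH.pow i))
    rcases (UpperHalfPlane.mul_eq_zero_iff hm1 hm2).mp e with h0 | h0
    · exfalso
      apply hA0
      funext τ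
      have := congrFun h0 τ
      simpa [hμ.ne'] using this
    · exact h0
  have hinv : ∀ g ∈ GG N, H ∣[k] g = H := by
    rintro _ ⟨γ, hγ, rfl⟩
    show H ∣[k] γ = H
    obtain ⟨a', ha'⟩ := II_le_MFfun _ hA'
    obtain ⟨b', hb'⟩ := II_le_MFfun _ hB'
    have e1 : A' ∣[12 * ((mu N : ℤ) - 1)] γ = A' := by
      rw [← ha']
      exact a'.slash_action_eq' _ ⟨γ, hγ, rfl⟩
    have e2 : B' ∣[k + 12 * ((mu N : ℤ) - 1)] γ = B' := by
      rw [← hb']
      exact b'.slash_action_eq' _ ⟨γ, hγ, rfl⟩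
    have e3 : A' * (H ∣[k] γ) = A' * H := by
      calc A' * (H ∣[k] γ) = (A' ∣[12 * ((mu N : ℤ) - 1)] γ) * (H ∣[k] γ) := by rw [e1]
        _ = (A' * H) ∣[12 * ((mu N : ℤ) - 1) + k] γ := (mul_slash_SL2 _ _ _ _ _).symm
        _ = B' ∣[k + 12 * ((mu N : ℤ) - 1)] γ := by rw [hAH, add_comm]
        _ = B' := e2
        _ = A' * H := hAH.symm
    have e4 : A' * (H ∣[k] γ - H) = 0 := by rw [mul_sub, e3, sub_self]
    have hm : MDiff (H ∣[k] γ) := by
      rw [SL_slash]
      exact hH.slash k _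
    rcases (UpperHalfPlane.mul_eq_zero_iff hAN'.hol (hm.sub hH)).mp e4 with h0 | h0
    · exact absurd h0 hA0
    · exact sub_eq_zero.mp h0
  have hzero : ∀ γ : SL(2, ℤ), IsZeroAtImInfty (H ∣[k] γ) := by
    intro γ
    have hcinv : ∀ i < μ, c' i ∣[k * ((μ - i : ℕ) : ℤ)] γ = c' i := by
      intro i _
      obtain ⟨g, hg⟩ := II_le_MFfun _ (hc' i)
      rw [← hg]
      exact g.slash_action_eq' _ ⟨γ, rfl⟩
    have hr := rel_slash γ hcinv hrelH
    refine tendsto_zero_of_monic hμ (c := c') (fun i hi => ?_) (fun τ => ?_)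
    · apply isZeroAt_of_coeff_zero one_pos (hcN' i)
      rw [ec i, PowerSeries.coeff_map,
        coeff_zero_of_isZeroAt one_pos (hcN i) (normCoeff_zeroAt N f hi), map_zero]
    · have := congrFun hr τ
      simpa using this
  refine ⟨mkCF (GG N) k H hinv hH hzero, ?_⟩
  rw [coe_mkCF]
  have hHN : Nice 1 H := by
    have := Nice.of_modularForm (Γ := GG N) (k := k) (mkCF (GG N) k H hinv hH hzero) one_pos h1
    simpa using this
  have e5 : qExpansion 1 A' * qExpansion 1 H = qExpansion 1 A' * (qExpansion 1 f).map σ := by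
    rw [← hAN'.qExpansion_mul hHN one_pos, hAH, eB, eA, hBdef, hfN.qExpansion_mul hAN one_pos,
      map_mul, mul_comm]
  have hne : qExpansion 1 A' ≠ 0 := fun h0 => hA0 (hAN'.eq_zero_of_qExpansion one_pos h0)
  exact mul_left_cancel₀ hne e5

end FA_IS
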