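import Fermat.Agent.IntStr.TForm
import Fermat.Agent.IntStr.LevelOne

/-! The leading term structure of `∏_{q ≠ q₀} (T - T_q)`, `T = Δ(N·)`. -/

open UpperHalfPlane ModularForm Matrix.SpecialLinearGroup OnePoint CongruenceSubgroup Function
open scoped Manifold MatrixGroups ModularForm Real

namespace FA_IS

open PowerSeries

/-- the algebraic integers, as a subring of `ℂ` -/
abbrev Zbar : Subring ℂ := (integralClosure ℤ ℂ).toSubring

lemma mem_Zbar {z : ℂ} : z ∈ Zbar ↔ IsIntegral ℤ z := Iff.rfl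

lemma ZZ_le_Zbar : ZZ ≤ Zbar := by
  rintro _ ⟨c, rfl⟩
  exact isIntegral_algebraMap (R := ℤ) (A := ℂ) (x := c)

lemma coeffsIn_mono {R S : Subring ℂ} (h : R ≤ S) : coeffsIn R ≤ coeffsIn S :=
  fun _ hP n => h (hP n)

lemma expand_mem_coeffsIn {R : Subring ℂ} {P : PowerSeries ℂ} (hP : P ∈ coeffsIn R) (p : ℕ)
    (hp : p ≠ 0) : expand p hp P ∈ coeffsIn R := by
  intro n
  rw [coeff_expand]
  split_ifs
  · exact hP _
  · exact R.zero_mem

lemma rescale_mem_coeffsIn {R : Subring ℂ} {P : PowerSeries ℂ} (hP : P ∈ coeffsIn R) {ζ : ℂ}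
    (hζ : ζ ∈ R) : rescale ζ P ∈ coeffsIn R := by
  intro n
  rw [coeff_rescale]
  exact R.mul_mem (R.pow_mem hζ n) (hP n)

lemma C_mem_coeffsIn {R : Subring ℂ} {z : ℂ} (hz : z ∈ R) : C z ∈ coeffsIn R := by
  intro n
  rw [coeff_C]
  split_ifs
  · exact hz
  · exact R.zero_mem

lemma X_mem_coeffsIn (R : Subring ℂ) : (X : PowerSeries ℂ) ∈ coeffsIn R := by
  intro n
  rw [coeff_X]
  split_ifs
  · exact R.one_mem
  · exact R.zero_mem

/-- power series of the shape `c X^M u`, `c ≠ 0` algebraic, `u ∈ 1 + X ℤbar[[X]]`. -/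
def Lead (P : PowerSeries ℂ) : Prop :=
  ∃ (c : ℂ) (M : ℕ) (u : PowerSeries ℂ), c ≠ 0 ∧ IsAlgebraic ℚ c ∧ u ∈ coeffsIn Zbar ∧
    constantCoeff u = 1 ∧ P = C c * X ^ M * u

lemma Lead.one : Lead 1 :=
  ⟨1, 0, 1, one_ne_zero, isAlgebraic_one, Subring.one_mem _, by simp, by simp⟩

lemma Lead.mul {P Q : PowerSeries ℂ} (hP : Lead P) (hQ : Lead Q) : Lead (P * Q) := by
  obtain ⟨c, M, u, hc, hca, hu, hu0, rfl⟩ := hP
  obtain ⟨c', M', u', hc', hca', hu', hu0', rfl⟩ := hQ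
  exact ⟨c * c', M + M', u * u', mul_ne_zero hc hc', hca.mul hca', Subring.mul_mem _ hu hu',
    by simp [hu0, hu0'], by rw [map_mul, pow_add]; ring⟩

lemma Lead.prod {ι : Type*} (s : Finset ι) {P : ι → PowerSeries ℂ} (h : ∀ i ∈ s, Lead (P i)) :
    Lead (∏ i ∈ s, P i) := by
  classical
  induction s using Finset.induction_on with
  | empty => simpa using Lead.one
  | insert i t hi IH =>
    rw [Finset.prod_insert hi]
    exact (h i (Finset.mem_insert_self _ _)).mul (IH fun j hj => h j (Finset.mem_insert_of_mem hj))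

lemma Lead.ne_zero {P : PowerSeries ℂ} (hP : Lead P) : P ≠ 0 := by
  obtain ⟨c, M, u, hc, -, -, hu0, rfl⟩ := hP
  have hu : u ≠ 0 := by
    rintro rfl
    simp at hu0
  have hC : (C c : PowerSeries ℂ) ≠ 0 := by
    intro h
    apply hc
    have := congrArg constantCoeff h
    simpa using this
  exact mul_ne_zero (mul_ne_zero hC (pow_ne_zero _ X_ne_zero)) hu

/-- `Δ = q · v`, `v ∈ 1 + q ℤ[[q]]`. -/
lemma exists_discriminant_eq_X_mul : ∃ v : PowerSeries ℂ, v ∈ coeffsIn ZZ ∧ constantCoeff v = 1 ∧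
    qExpansion 1 ModularForm.discriminant = X * v := by
  refine ⟨PowerSeries.mk fun n => coeff (n + 1) (qExpansion 1 ModularForm.discriminant), ?_, ?_, ?_⟩
  · intro n
    rw [coeff_mk]
    obtain ⟨c, hc⟩ := FA_IS_discriminant_qExpansion_int (n + 1)
    exact ⟨c, hc.symm⟩
  · rw [← coeff_zero_eq_constantCoeff_apply, coeff_mk]
    exact discriminant_qExpansion_coeff_one
  · ext n
    cases n with
    | zero =>
      rw [coeff_zero_X_mul]
      apply coeff_of_lt_order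
      rw [discriminant_qExpansion_order]
      exact zero_lt_one
    | succ n => rw [coeff_succ_X_mul, coeff_mk]

lemma zetaAff_mem_Zbar (d : ℕ) (hd : 0 < d) (b : ℤ) : zetaAff d b ∈ Zbar :=
  IsIntegral.of_pow hd (by rw [zetaAff_pow d hd b]; exact isIntegral_one)

lemma zetaAff_ne_zero (d : ℕ) (b : ℤ) : zetaAff d b ≠ 0 := Complex.exp_ne_zero _

lemma zetaAff_inv_mem_Zbar (d : ℕ) (hd : 0 < d) (b : ℤ) : (zetaAff d b)⁻¹ ∈ Zbar := by
  have h : (zetaAff d b)⁻¹ = zetaAff d b ^ (d - 1) := by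
    apply inv_eq_of_mul_eq_one_right
    rw [← pow_succ', Nat.sub_add_cancel hd, zetaAff_pow d hd b]
  rw [h]
  exact Subring.pow_mem _ (zetaAff_mem_Zbar d hd b) _

lemma lead_factor {a d N : ℕ} (ha : 0 < a) (hd : 0 < d) (had : a * d = N) (hd1 : d ≠ 1) (b : ℤ)
    (hN2 : N ^ 2 ≠ 0) (ha2 : a ^ 2 ≠ 0) (z : ℂ) (hz : z = 1) :
    Lead (expand (N ^ 2) hN2 (rescale z (qExpansion 1 ModularForm.discriminant)) -
      (((d : ℂ) ^ (12 : ℤ))⁻¹ • expand (a ^ 2) ha2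
        (rescale (zetaAff d b) (qExpansion 1 ModularForm.discriminant)))) := by
  subst hz
  obtain ⟨v, hv, hv0, hΔ⟩ := exists_discriminant_eq_X_mul
  have hv' : v ∈ coeffsIn Zbar := coeffsIn_mono ZZ_le_Zbar hv
  have hdC : (d : ℂ) ≠ 0 := by exact_mod_cast hd.ne'
  set ζ := zetaAff d b with hζ
  have hζ0 : ζ ≠ 0 := zetaAff_ne_zero d b
  have hlt : a ^ 2 < N ^ 2 := by
    have : a < N := by
      rw [← had]
      have : 2 ≤ d := by omega
      nlinarith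
    exact Nat.pow_lt_pow_left this two_ne_zero
  refine ⟨-(((d : ℂ) ^ 12)⁻¹ * ζ), a ^ 2, expand (a ^ 2) ha2 (rescale ζ v) -
    C ((d : ℂ) ^ 12 * ζ⁻¹) * X ^ (N ^ 2 - a ^ 2) * expand (N ^ 2) hN2 v, ?_, ?_, ?_, ?_, ?_⟩
  · exact neg_ne_zero.mpr (mul_ne_zero (inv_ne_zero (pow_ne_zero _ hdC)) hζ0)
  · refine IsAlgebraic.neg (IsAlgebraic.mul (IsAlgebraic.inv ?_) ?_)
    · exact (isAlgebraic_natCast (R := ℚ) (A := ℂ) d).pow 12
    · exact ((zetaAff_mem_Zbar d hd b : IsIntegral ℤ ζ).tower_top (A := ℚ)).isAlgebraic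
  · refine Subring.sub_mem _ (expand_mem_coeffsIn (rescale_mem_coeffsIn hv'
      (zetaAff_mem_Zbar d hd b)) _ _) (Subring.mul_mem _ (Subring.mul_mem _ (C_mem_coeffsIn ?_)
        (Subring.pow_mem _ (X_mem_coeffsIn _) _)) (expand_mem_coeffsIn hv' _ _))
    exact Subring.mul_mem _ (Subring.pow_mem _ (natCast_mem _ d) _) (zetaAff_inv_mem_Zbar d hd b)
  · have hpos : N ^ 2 - a ^ 2 ≠ 0 := by omega
    rw [map_sub, constantCoeff_expand, map_mul, map_mul, map_pow, constantCoeff_X, zero_pow hpos]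
    rw [← coeff_zero_eq_constantCoeff_apply, coeff_rescale]
    simp [hv0]
  · rw [hΔ, rescale_one, RingHom.id_apply, map_mul, map_mul, map_mul, expand_X, rescale_X, map_mul,
      expand_X, expand_C, zpow_ofNat]
    have e : (X : PowerSeries ℂ) ^ (N ^ 2) = X ^ (a ^ 2) * X ^ (N ^ 2 - a ^ 2) := by
      rw [← pow_add, Nat.add_sub_cancel' hlt.le]
    rw [e, smul_eq_C_mul]
    have e2 : (C (-(((d : ℂ) ^ 12)⁻¹ * ζ)) : PowerSeries ℂ) * C ((d : ℂ) ^ 12 * ζ⁻¹) = -1 := by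
      rw [← map_mul]
      have : -(((d : ℂ) ^ 12)⁻¹ * ζ) * ((d : ℂ) ^ 12 * ζ⁻¹) = -1 := by
        field_simp
      rw [this, map_neg, map_one]
    have e3 : (C (-(((d : ℂ) ^ 12)⁻¹ * ζ)) : PowerSeries ℂ) = - (C (((d : ℂ) ^ 12)⁻¹) * C ζ) := by
      rw [← map_mul, map_neg]
    linear_combination ((X : PowerSeries ℂ) ^ (a ^ 2) * X ^ (N ^ 2 - a ^ 2) * expand (N ^ 2) hN2 v) * e2
      - (X ^ (a ^ 2) * expand (a ^ 2) ha2 (rescale ζ v)) * e3

end FA_IS
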